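/-
S56 / block COUNT (sub-architect helper235) : definitions.
Generic Selmer groups for a pair of coefficient modules `N`, `M` of `GQ` in duality
`e : N × M → μ_p`, in the language of S55 (`Hsm`, `locS`, `Hloc`, `GPair`, `cup11`).
* `Sel S L`      : classes of `H^1_S(M)` whose localisations lie in `L q ≤ H^1_q(M)`, `q ∈ S`;
* `DSel S e L`   : classes `b` of `H^1_S(N)` with `loc_q b ∪ l = 0` in `H^2_q(μ_p)` for `l ∈ L q`, `q ∈ S`;
* `ExtMod D`     : the extension of `𝔽_p` by `N` attached to a `1`-cocycle.
Definitions only (with the small proofs needed to make them).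
-/
import Fermat.Agent.S55.Formal.Contract
import Fermat.Agent.S55.Arith.Smooth
import Fermat.Agent.S55.FB.Cup11
import Fermat.Agent.S55.FB.Cup02

set_option autoImplicit false

namespace Fermat.Agent.S56.Count

open Fermat.Agent.S55 Fermat.Agent.S55.FB

section selmer

variable (S : Finset Nat.Primes) {p : ℕ}
variable {N M : Type} [AddCommGroup N] [DistribMulAction GQ N] [AddCommGroup M]
  [DistribMulAction GQ M]

/-- A family of local conditions `L q ≤ H^1_q(M)`, `q ∈ S`. -/
abbrev LocCond (S : Finset Nat.Primes) (M : Type) [AddCommGroup M] [DistribMulAction GQ M] : Type :=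
  ∀ q : ↥S, AddSubgroup (Hloc q.1 M 1)

/-- The Selmer group. -/
noncomputable def Sel (L : LocCond S M) : AddSubgroup (Hsm (lvlS S) M 1) :=
  ⨅ q : ↥S, (L q).comap (locS S M q.1 1)

variable {S} in
theorem mem_Sel {L : LocCond S M} {x : Hsm (lvlS S) M 1} :
    x ∈ Sel S L ↔ ∀ q : ↥S, locS S M q.1 1 x ∈ L q := by
  simp [Sel, AddSubgroup.mem_iInf]

/-- The local cup product `H^1_q(N) × H^1_q(M) → H^2_q(μ_p)`. -/
noncomputable def cupLoc [Smooth lvlAll M] (e : GPair GQ N M (Mu p)) (q : Nat.Primes) :
    Hloc q N 1 →+ Hloc q M 1 →+ Hloc q (Mu p) 2 :=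
  cup11 (lvlLoc q) (e.res (ιv q))

/-- The dual Selmer group (defined without the invariant maps). -/
noncomputable def DSel [Smooth lvlAll M] (e : GPair GQ N M (Mu p)) (L : LocCond S M) :
    AddSubgroup (Hsm (lvlS S) N 1) where
  carrier := {b | ∀ q : ↥S, ∀ l ∈ L q, cupLoc e q.1 (locS S N q.1 1 b) l = 0}
  zero_mem' := fun q l _ => by simp
  add_mem' := fun {a b} ha hb q l hl => by
    rw [map_add, map_add, AddMonoidHom.add_apply, ha q l hl, hb q l hl, add_zero]
  neg_mem' := fun {a} ha q l hl => by
    rw [map_neg, map_neg, AddMonoidHom.neg_apply, ha q l hl, neg_zero]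

variable {S} in
theorem mem_DSel [Smooth lvlAll M] {e : GPair GQ N M (Mu p)} {L : LocCond S M}
    {b : Hsm (lvlS S) N 1} :
    b ∈ DSel S e L ↔ ∀ q : ↥S, ∀ l ∈ L q, cupLoc e q.1 (locS S N q.1 1 b) l = 0 := Iff.rfl

open Classical in
/-- Enlarge the set of primes: no condition at the new primes. -/
noncomputable def LocCond.extend {S₀ : Finset Nat.Primes} (L : LocCond S₀ M)
    (S : Finset Nat.Primes) : LocCond S M :=
  fun q => if h : q.1 ∈ S₀ then L ⟨q.1, h⟩ else ⊤

theorem LocCond.extend_of_mem {S₀ : Finset Nat.Primes} (L : LocCond S₀ M) (q : ↥S)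
    (h : q.1 ∈ S₀) : L.extend S q = L ⟨q.1, h⟩ := by
  simp [LocCond.extend, h]

theorem LocCond.extend_of_not_mem {S₀ : Finset Nat.Primes} (L : LocCond S₀ M) (q : ↥S)
    (h : q.1 ∉ S₀) : L.extend S q = ⊤ := by
  simp [LocCond.extend, h]

end selmer

/-! ### The map `M → Hom(N, C)` attached to a pairing -/

section toHom

variable {G : Type} [Group G] {A A' C : Type} [AddCommGroup A] [DistribMulAction G A]
  [AddCommGroup A'] [DistribMulAction G A'] [AddCommGroup C] [DistribMulAction G C]

/-- `a' ↦ e(·, a')`, as an equivariant map `A' → Hom(A, C)`. -/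
def pairHom (e : GPair G A A' C) : A' →+[G] HomMod A C where
  toFun a' := HomMod.of (e.toFun.flip a')
  map_smul' g a' := by
    apply HomMod.ext
    intro a
    show e a (g • a') = g • e (g⁻¹ • a) a'
    rw [← e.smul_smul, smul_inv_smul]
  map_zero' := by
    apply HomMod.ext
    intro a
    exact e.zero_right a
  map_add' x y := by
    apply HomMod.ext
    intro a
    exact e.add_right a x y

@[simp] theorem pairHom_apply (e : GPair G A A' C) (a' : A') (a : A) : pairHom e a' a = e a a' := rfl

end toHom

/-! ### The extension attached to a cocycle -/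

section ext

variable {G N : Type} [Group G] [AddCommGroup N] [DistribMulAction G N] {p : ℕ}

/-- A `1`-cocycle with values in a module killed by `p`. -/
structure ExtData (G N : Type) [Group G] [AddCommGroup N] [DistribMulAction G N] (p : ℕ) where
  z : G → N
  cocycle : ∀ g h : G, z (g * h) = z g + g • z h
  ptors : ∀ n : N, p • n = 0

theorem ExtData.z_one (D : ExtData G N p) : D.z 1 = 0 := by
  have h := D.cocycle 1 1
  rw [mul_one, one_smul] at h
  exact add_eq_left.1 h.symm

/-- The scalar multiplication `𝔽_p × N → N`. -/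
def ExtData.sc (D : ExtData G N p) : GPair G (Fp p) N N := fpPair p G N D.ptors

/-- `E = N × 𝔽_p` with the action `g (n, c) = (g n + c z(g), c)`. -/
def ExtMod (_D : ExtData G N p) : Type := N × Fp p

namespace ExtMod

variable (D : ExtData G N p)

instance : AddCommGroup (ExtMod D) := inferInstanceAs (AddCommGroup (N × Fp p))

/-- Build an element. -/
def mk (n : N) (c : Fp p) : ExtMod D := (n, c)

/-- The first component. -/
def fst : ExtMod D →+ N := AddMonoidHom.fst N (Fp p)

/-- The second component. -/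
def snd : ExtMod D →+ Fp p := AddMonoidHom.snd N (Fp p)

variable {D}

@[simp] theorem fst_mk (n : N) (c : Fp p) : fst D (mk D n c) = n := rfl
@[simp] theorem snd_mk (n : N) (c : Fp p) : snd D (mk D n c) = c := rfl

@[ext] theorem ext {x y : ExtMod D} (h₁ : fst D x = fst D y) (h₂ : snd D x = snd D y) : x = y :=
  Prod.ext h₁ h₂

theorem mk_add (n n' : N) (c c' : Fp p) : mk D (n + n') (c + c') = mk D n c + mk D n' c' := rfl

instance : DistribMulAction G (ExtMod D) where
  smul g x := mk D (g • fst D x + D.sc (snd D x) (D.z g)) (snd D x)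
  one_smul x := by
    apply ext
    · show (1 : G) • fst D x + D.sc (snd D x) (D.z 1) = fst D x
      rw [D.z_one, one_smul, GPair.zero_right, add_zero]
    · rfl
  mul_smul g h x := by
    apply ext
    · show (g * h) • fst D x + D.sc (snd D x) (D.z (g * h)) =
        g • (h • fst D x + D.sc (snd D x) (D.z h)) + D.sc (snd D x) (D.z g)
      have h1 : g • D.sc (snd D x) (D.z h) = D.sc (snd D x) (g • D.z h) := by
        rw [← D.sc.smul_smul, Fp.smul_def]
      rw [D.cocycle, GPair.add_right, mul_smul, smul_add, h1]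
      abel
    · rfl
  smul_zero g := by
    apply ext
    · show g • (0 : N) + D.sc (0 : Fp p) (D.z g) = 0
      rw [smul_zero, GPair.zero_left, add_zero]
    · rfl
  smul_add g x y := by
    apply ext
    · show g • (fst D x + fst D y) + D.sc (snd D x + snd D y) (D.z g) =
        (g • fst D x + D.sc (snd D x) (D.z g)) + (g • fst D y + D.sc (snd D y) (D.z g))
      rw [smul_add, GPair.add_left]
      abel
    · rfl

@[simp] theorem fst_smul (g : G) (x : ExtMod D) :
    fst D (g • x) = g • fst D x + D.sc (snd D x) (D.z g) := rfl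

@[simp] theorem snd_smul (g : G) (x : ExtMod D) : snd D (g • x) = snd D x := rfl

variable (D)

/-- `N → E`. -/
def incl : N →+[G] ExtMod D where
  toFun n := mk D n 0
  map_smul' g n := by
    apply ext
    · show g • n = g • n + D.sc (0 : Fp p) (D.z g)
      rw [GPair.zero_left, add_zero]
    · rfl
  map_zero' := rfl
  map_add' n n' := by
    apply ext
    · rfl
    · show (0 : Fp p) = 0 + 0
      rw [add_zero]

/-- `E → 𝔽_p`. -/
def proj : ExtMod D →+[G] Fp p where
  toFun x := snd D x
  map_smul' _ _ := rfl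
  map_zero' := rfl
  map_add' _ _ := rfl

@[simp] theorem fst_incl (n : N) : fst D (incl D n) = n := rfl
@[simp] theorem snd_incl (n : N) : snd D (incl D n) = 0 := rfl
@[simp] theorem proj_apply (x : ExtMod D) : proj D x = snd D x := rfl

theorem shortExact : ShortExact (incl D) (proj D) where
  inj := fun a b h => congrArg (fst D) h
  exact := fun x => by
    constructor
    · intro h
      exact ⟨fst D x, ext rfl (Eq.symm h)⟩
    · rintro ⟨n, rfl⟩
      rfl
  surj := fun c => ⟨mk D 0 c, rfl⟩

end ExtMod

/-- `1 ∈ H^0(𝔽_p)`. -/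
noncomputable def oneFp (𝓝 : LevelSys G) (p : ℕ) : Hsm 𝓝 (Fp p) 0 :=
  Hsm.H0equiv.symm ⟨Fp.of p 1, fun _ => rfl⟩

/-- The extension data of a smooth cocycle. -/
def ExtData.ofZsm {𝓝 : LevelSys G} (z : Zsm 𝓝 N 1) (hN : ∀ n : N, p • n = 0) : ExtData G N p where
  z g := (z : (Fin 1 → G) → N) fun _ => g
  cocycle g h := cocycle_one z.2.2 g h
  ptors := hN

end ext

end Fermat.Agent.S56.Count
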