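/-
S56 / block COUNT (sub-architect helper235), node CNT-4 (task 2471, owner helper169):
duality of finite groups killed by `p` with values in a group of order `p`.
-/
import Fermat.Agent.S56.Count.Defs
import Fermat.Agent.S55.Exist.Abs.HomCard

set_option autoImplicit false

namespace Fermat.Agent.S56.Count

open Fermat.Agent.S55 Fermat.Agent.S55.FB

variable {G : Type} [Group G] {A A' C : Type} [AddCommGroup A] [DistribMulAction G A]
  [AddCommGroup A'] [DistribMulAction G A'] [AddCommGroup C] [DistribMulAction G C]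

/-- a group of prime order `p` is (non canonically) `ZMod p` -/
theorem Perfect.exists_addEquiv_zmod {p : ℕ} [Fact p.Prime] (hC : Nat.card C = p) :
    Nonempty (ZMod p ≃+ C) := by
  have hcyc : IsAddCyclic C := isAddCyclic_of_prime_card hC
  subst hC
  exact ⟨zmodAddCyclicAddEquiv hcyc⟩

/-- additive maps to a group of prime order: `#Hom(A, C) ≤ #A` -/
theorem card_homMod_le {p : ℕ} [Fact p.Prime] [Finite A] (hC : Nat.card C = p) :
    Finite (HomMod A C) ∧ Nat.card (HomMod A C) ≤ Nat.card A := by
  obtain ⟨u⟩ := Perfect.exists_addEquiv_zmod hC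
  obtain ⟨hfin, hcard⟩ := Exist.Abs.card_addHom_zmod_le (p := p) Fact.out A
  let Φ : HomMod A C → (A →+ ZMod p) := fun φ => u.symm.toAddMonoidHom.comp (HomMod.toHom φ)
  have hΦ : Function.Injective Φ := by
    intro φ ψ h
    apply HomMod.ext
    intro a
    have h1 : u.symm (φ a) = u.symm (ψ a) := DFunLike.congr_fun h a
    exact u.symm.injective h1
  exact ⟨Finite.of_injective Φ hΦ, (Nat.card_le_card_of_injective Φ hΦ).trans hcard⟩

/-- linear forms separate the points of a vector space over `ZMod p` -/
theorem Perfect.exists_addHom_zmod_ne_zero {p : ℕ} [Fact p.Prime] [Module (ZMod p) A] {a : A}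
    (ha : a ≠ 0) : ∃ f : A →+ ZMod p, f a ≠ 0 := by
  obtain ⟨f, hf⟩ := Module.Projective.exists_dual_ne_zero (ZMod p) ha
  exact ⟨f.toAddMonoidHom, hf⟩

/-- additive maps to a group of prime order `p` separate the points of a group killed by `p` -/
theorem exists_homMod_ne_zero {p : ℕ} [Fact p.Prime] (hA : ∀ a : A, p • a = 0)
    (hC : Nat.card C = p) {a : A} (ha : a ≠ 0) : ∃ φ : HomMod A C, φ a ≠ 0 := by
  obtain ⟨u⟩ := Perfect.exists_addEquiv_zmod hC
  obtain ⟨f, hf⟩ := @Perfect.exists_addHom_zmod_ne_zero A _ p _ (AddCommGroup.zmodModule hA) a ha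
  refine ⟨HomMod.of (u.toAddMonoidHom.comp f), fun h => hf ?_⟩
  have h2 : u (f a) = 0 := h
  exact (map_eq_zero_iff u u.injective).1 h2

/-- a perfect pairing of finite groups with values in a group of prime order identifies each side with
the dual of the other one -/
theorem pairHom_bijective {p : ℕ} [Fact p.Prime] [Finite A] [Finite A'] (hC : Nat.card C = p)
    (e : GPair G A A' C) (he : e.IsPerfect) : Function.Bijective (pairHom e) := by
  have hinj : Function.Injective (pairHom e) := by
    rw [injective_iff_map_eq_zero]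
    intro a' h
    apply he.2 a'
    intro a
    have h1 := DFunLike.congr_fun h a
    exact h1
  have hinj' : Function.Injective (pairHom e.flip) := by
    rw [injective_iff_map_eq_zero]
    intro a h
    apply he.1 a
    intro a'
    have h1 := DFunLike.congr_fun h a'
    exact h1
  obtain ⟨hf1, hc1⟩ := card_homMod_le (A := A) (C := C) hC
  obtain ⟨hf2, hc2⟩ := card_homMod_le (A := A') (C := C) hC
  have hc3 : Nat.card A ≤ Nat.card (HomMod A' C) := Nat.card_le_card_of_injective _ hinj'
  exact hinj.bijective_of_nat_card_le (hc1.trans (hc3.trans hc2))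

/-- the evaluation pairing `Hom(M, C) × M → C` is perfect -/
theorem ev_flip_isPerfect {p : ℕ} [Fact p.Prime] (hA : ∀ a : A, p • a = 0) (hC : Nat.card C = p) :
    (GPair.ev G A C).flip.IsPerfect := by
  constructor
  · intro φ h
    exact HomMod.ext h
  · intro a h
    by_contra ha
    obtain ⟨φ, hφ⟩ := exists_homMod_ne_zero (C := C) hA hC ha
    exact hφ (h φ)

/-- **DD** (double dual): every additive map `Hom(E, C) → C` is an evaluation -/
theorem exists_eval {p : ℕ} [Fact p.Prime] [Finite A] (hA : ∀ a : A, p • a = 0)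
    (hC : Nat.card C = p) (f : HomMod A C →+ C) : ∃ a : A, ∀ φ : HomMod A C, f φ = φ a := by
  obtain ⟨hf1, hc1⟩ := card_homMod_le (A := A) (C := C) hC
  obtain ⟨hf2, hc2⟩ := card_homMod_le (A := HomMod A C) (C := C) hC
  let Ψ : A → HomMod (HomMod A C) C := fun a =>
    HomMod.of { toFun := fun φ => φ a, map_zero' := rfl, map_add' := fun _ _ => rfl }
  have hΨ : Function.Injective Ψ := by
    intro a b h
    by_contra hab
    obtain ⟨φ, hφ⟩ := exists_homMod_ne_zero (C := C) hA hC (sub_ne_zero.2 hab)
    apply hφ
    have h1 : φ a = φ b := DFunLike.congr_fun h φ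
    rw [map_sub, h1, sub_self]
  have hbij : Function.Bijective Ψ := hΨ.bijective_of_nat_card_le (hc2.trans hc1)
  obtain ⟨a, ha⟩ := hbij.2 (HomMod.of f)
  refine ⟨a, fun φ => ?_⟩
  have h1 : φ a = f φ := DFunLike.congr_fun ha φ
  exact h1.symm

end Fermat.Agent.S56.Count
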