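/-
S56 / block COUNT, node `LvlMono` (task S56-CNT-10a): enlarging the set of primes `S`.
-/
import Fermat.Agent.S56.Count.Defs
import Fermat.Agent.S55.Coh.ResApi

set_option autoImplicit false

namespace Fermat.Agent.S56.Count

open Fermat.Agent.S55 Fermat.Agent.S55.FB

variable {S₀ S : Finset Nat.Primes} {p : ℕ}
variable {N : Type} [AddCommGroup N] [DistribMulAction GQ N]

theorem lvlS_mono (h : S₀ ⊆ S) : (lvlS S₀).Le (lvlS S) := by
  rintro _ ⟨F, hf, hn, rfl⟩
  exact ⟨_, ⟨F, hf.mono h, hn, rfl⟩, le_rfl⟩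

theorem IsCoef.mono (h : S₀ ⊆ S) (hN : IsCoef S₀ p N) : IsCoef S p N where
  finite := hN.finite
  ptors := hN.ptors
  smooth :=
    have := hN.smooth
    Smooth.of_le (lvlS_mono h)

theorem locS_refine (h : S₀ ⊆ S) (q : Nat.Primes) (n : ℕ) (x : Hsm (lvlS S₀) N n) :
    locS S N q n (Hsm.refine N (lvlS_mono h) n x) = locS S₀ N q n x := by
  induction x using Hsm.induction_on with
  | h z => rfl

end Fermat.Agent.S56.Count
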