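/-
S56 / block COUNT, task S56-CNT-10b (sub-architect helper235; this file: helper127).
A normal subgroup which is open for `lvlS S` and contains the inertia groups of the primes of
`S \ S₀` is a level of `lvlS S₀`.
-/
import Fermat.Agent.S56.Count.Defs
import Fermat.Agent.S55.Arith.LocInterface
import Fermat.Agent.S55.Bridge.Fields
import Fermat.Agent.S55.Bridge.LocalImage
import Fermat.Agent.S55.Dict.Below
import Fermat.Agent.S55.Dict.Field

set_option autoImplicit false

namespace Fermat.Agent.S56.Count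

open Fermat.Agent.S55 Fermat.Agent.S55.FB
open scoped Pointwise

variable {S₀ S : Finset Nat.Primes}

theorem Inertia.plc_liesOver (q : Nat.Primes) : (plc q).LiesOverPrime (q : ℕ) := by
  have : Fact (q : ℕ).Prime := ⟨q.2⟩
  exact Bridge.padicPlace_liesOverPrime (q : ℕ)

/-- every element of the global inertia group at the chosen place comes from the local one. -/
theorem Inertia.exists_ιv_eq (q : Nat.Primes) {σ : GQ} (hσ : σ ∈ (plc q).inertiaSubgroupIn ℚ) :
    ∃ τ ∈ inertiaLoc q, ιv q τ = σ := by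
  have : Fact (q : ℕ).Prime := ⟨q.2⟩
  have h1 : σ ∈ (plc q).decompositionSubgroup ℚ := by
    obtain ⟨i, -, rfl⟩ := hσ
    exact i.2
  have h2 : σ ∈ (ιv q).range := by
    have h3 := Bridge.range_localGaloisToGlobal (q : ℕ)
    have h4 : σ ∈ (localGaloisToGlobal (q : ℕ)).range := by
      rw [h3]
      exact h1
    exact h4
  obtain ⟨τ, hτ⟩ := h2
  refine ⟨τ, ?_, hτ⟩
  show ιv q τ ∈ (plc q).inertiaSubgroupIn ℚ
  rw [hτ]
  exact hσ

/-- A normal subgroup which is open for `lvlS S` and contains the inertia groups (at the chosen places)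
of the primes of `S \ S₀` is a level of `lvlS S₀`. -/
theorem mem_lvlS_of_inertia (U : Subgroup GQ) (hn : U.Normal) (hU : (lvlS S).IsOpen U)
    (h : ∀ q ∈ S, q ∉ S₀ → ∀ τ ∈ inertiaLoc q, ιv q τ ∈ U) : U ∈ (lvlS S₀).carrier := by
  have hUall : lvlAll.IsOpen U := by
    obtain ⟨N, hN, hNU⟩ := hU
    obtain ⟨N', hN', hle⟩ := lvlS_le_lvlAll S N hN
    exact ⟨N', hN', hle.trans hNU⟩
  have hfix : (IntermediateField.fixedField U).fixingSubgroup = U := Dict.field_fixing_fixed hUall
  refine ⟨IntermediateField.fixedField U, ⟨Dict.field_finiteDimensional_fixed hUall, ?_⟩, ?_,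
    hfix.symm⟩
  · intro q hq A hA
    rw [hfix]
    by_cases hqS : q ∈ S
    · obtain ⟨g, hg⟩ := Dict.exists_smul_eq_of_liesOverPrime q.2 hA (Inertia.plc_liesOver q)
      intro σ hσ
      have h1 := Bridge.conj_mem_inertiaSubgroupIn_smul A g σ hσ
      rw [hg] at h1
      obtain ⟨τ, hτ, hτσ⟩ := Inertia.exists_ιv_eq q h1
      have h2 : g * σ * g⁻¹ ∈ U := by
        rw [← hτσ]
        exact h q hqS hq τ hτ
      have h3 := hn.conj_mem _ h2 g⁻¹
      have h4 : g⁻¹ * (g * σ * g⁻¹) * g⁻¹⁻¹ = σ := by group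
      rwa [h4] at h3
    · obtain ⟨_, ⟨F', hF', -, rfl⟩, hNU⟩ := hU
      exact (hF'.2 q hqS A hA).trans hNU
  · intro g x hx
    rw [IntermediateField.mem_fixedField_iff] at hx ⊢
    intro u hu
    have h1 : g⁻¹ * u * g⁻¹⁻¹ ∈ U := hn.conj_mem u hu g⁻¹
    have h2 := hx _ h1
    have h3 : (g⁻¹ * u * g⁻¹⁻¹) x = g⁻¹ (u (g x)) := by
      rw [inv_inv]
      rfl
    rw [h3] at h2
    have h4 : g (g⁻¹ (u (g x))) = u (g x) := g.apply_symm_apply _
    rw [← h4, h2]

end Fermat.Agent.S56.Count
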