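/-
S56 / block COUNT, node `Inf` (task S56-CNT-10c; shadow helper175): **INF**, a class of `H^1_S(N)`
which is locally trivial at the primes of `S \ S₀` is inflated from `H^1_{S₀}(N)`.
-/
import Fermat.Agent.S56.Count.Defs
import Fermat.Agent.S56.Count.Inertia
import Fermat.Agent.S55.Coh.ResApi
import Fermat.Agent.S55.Units.AdaptL7

set_option autoImplicit false

namespace Fermat.Agent.S56.Count

open Fermat.Agent.S55 Fermat.Agent.S55.FB

variable {S₀ S : Finset Nat.Primes} {p : ℕ}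
variable {N : Type} [AddCommGroup N] [DistribMulAction GQ N]

/-- The subgroup of `U` on which a cocycle vanishes (`U` acts trivially on the coefficients). -/
def Inf.kerSub {G N : Type} [Group G] [AddCommGroup N] [DistribMulAction G N] (c : G → N)
    (hc : ∀ g h : G, c (g * h) = c g + g • c h) (U : Subgroup G)
    (hU : ∀ u ∈ U, ∀ n : N, u • n = n) : Subgroup G where
  carrier := {u | u ∈ U ∧ c u = 0}
  one_mem' := by
    refine ⟨U.one_mem, ?_⟩
    have h := hc 1 1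
    rw [mul_one, one_smul] at h
    exact add_eq_left.1 h.symm
  mul_mem' := by
    rintro u v ⟨hu, hu0⟩ ⟨hv, hv0⟩
    exact ⟨U.mul_mem hu hv, by rw [hc, hu0, hv0, smul_zero, add_zero]⟩
  inv_mem' := by
    rintro u ⟨hu, hu0⟩
    refine ⟨U.inv_mem hu, ?_⟩
    have h1 : c 1 = 0 := by
      have h := hc 1 1
      rw [mul_one, one_smul] at h
      exact add_eq_left.1 h.symm
    have h := hc u u⁻¹
    rw [mul_inv_cancel, h1, hu0, zero_add, hU u hu] at h
    exact h.symm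

theorem Inf.kerSub_normal {G N : Type} [Group G] [AddCommGroup N] [DistribMulAction G N] (c : G → N)
    (hc : ∀ g h : G, c (g * h) = c g + g • c h) (U : Subgroup G) (hn : U.Normal)
    (hU : ∀ u ∈ U, ∀ n : N, u • n = n) : (Inf.kerSub c hc U hU).Normal := by
  refine ⟨fun u hu g => ?_⟩
  obtain ⟨hu, hu0⟩ := hu
  refine ⟨hn.conj_mem u hu g, ?_⟩
  have h1 : c 1 = 0 := by
    have h := hc 1 1
    rw [mul_one, one_smul] at h
    exact add_eq_left.1 h.symm
  have h2 := hc g g⁻¹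
  rw [mul_inv_cancel, h1] at h2
  rw [hc, hc, hu0, smul_zero, add_zero, mul_smul, hU u hu, ← h2]

/-- **INF** : a class of `H^1_S(N)` which is locally trivial at the primes of `S \ S₀` comes from
`H^1_{S₀}(N)`. -/
theorem exists_refine_eq (h : (lvlS S₀).Le (lvlS S)) (hN : IsCoef S₀ p N) (b : Hsm (lvlS S) N 1)
    (hb : ∀ q ∈ S, q ∉ S₀ → locS S N q 1 b = 0) :
    ∃ b₀ : Hsm (lvlS S₀) N 1, Hsm.refine N h 1 b₀ = b := by
  obtain ⟨z, rfl⟩ := Hsm.mk_surjective 1 b
  have := hN.finite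
  have := hN.smooth
  obtain ⟨U0, hU0, hfix⟩ :=
    Smooth.exists_fix_of_finite (𝓝 := lvlS S₀) (Set.finite_univ (α := N))
  have hfix' : ∀ u ∈ U0, ∀ n : N, u • n = n := fun u hu n => hfix n (Set.mem_univ n) u hu
  let c : GQ → N := fun g => (z : (Fin 1 → GQ) → N) fun _ => g
  have hc : ∀ g k : GQ, c (g * k) = c g + g • c k := fun g k => cocycle_one z.2.2 g k
  have hc1 : c 1 = 0 := by
    have h := hc 1 1
    rw [mul_one, one_smul] at h
    exact add_eq_left.1 h.symm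
  have hU1n := Inf.kerSub_normal c hc U0 ((lvlS S₀).normal U0 hU0) hfix'
  -- openness
  have hopen : (lvlS S).IsOpen (Inf.kerSub c hc U0 hfix') := by
    obtain ⟨U0', hU0', hle0⟩ := h U0 hU0
    obtain ⟨V, hV, hzV⟩ := z.2.1
    obtain ⟨W, hW, hle⟩ := (lvlS S).directed U0' hU0' V hV
    refine ⟨W, hW, fun u hu => ⟨hle0 (hle hu).1, ?_⟩⟩
    rw [← hc1]
    exact (hzV (fun _ => 1) (fun _ => u) fun _ => by
      rw [inv_one, one_mul]
      exact (hle hu).2).symm
  -- inertia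
  have hin : ∀ q ∈ S, q ∉ S₀ → ∀ τ ∈ inertiaLoc q, ιv q τ ∈ Inf.kerSub c hc U0 hfix' := by
    intro q hq hq0 τ hτ
    have hτ0 : ιv q τ ∈ U0 := Units.inertiaLoc_le_comap S₀ hq0 hU0 hτ
    refine ⟨hτ0, ?_⟩
    have h1 := (locS_mk_eq_zero_iff q z).1 (hb q hq hq0)
    obtain ⟨a, -, ha⟩ := h1
    have h2 := congrFun ha (fun _ => τ)
    rw [dd_zero_apply] at h2
    have h3 : τ • a default = a default := by
      rw [ResMod.smul_def']
      rw [hfix' _ hτ0]
      exact (ResMod.toRes (ιv q)).apply_symm_apply _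
    rw [h3, sub_self] at h2
    exact ((ResMod.toRes (ιv q)).map_eq_zero_iff.1 h2.symm)
  have hU1 := mem_lvlS_of_inertia (S₀ := S₀) _ hU1n hopen hin
  have hz0 : (z : (Fin 1 → GQ) → N) ∈ Zsm (lvlS S₀) N 1 := by
    refine ⟨⟨_, hU1, fun g k hgk => ?_⟩, z.2.2⟩
    have hg : g = fun _ => g 0 := by
      funext i
      rw [Fin.fin_one_eq_zero i]
    have hk : k = fun _ => g 0 * ((g 0)⁻¹ * k 0) := by
      funext i
      rw [Fin.fin_one_eq_zero i, mul_inv_cancel_left]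
    have h4 : c (g 0 * ((g 0)⁻¹ * k 0)) = c (g 0) := by
      rw [hc, (hgk 0).2, smul_zero, add_zero]
    rw [hk, hg]
    exact h4.symm
  refine ⟨Hsm.mk (lvlS S₀) N 1 ⟨z, hz0⟩, ?_⟩
  obtain ⟨hz', h5⟩ := Hsm.refine_mk h 1 (⟨z, hz0⟩ : Zsm (lvlS S₀) N 1)
  rw [h5]

end Fermat.Agent.S56.Count
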