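/-
S56 / block COUNT, node S56-CNT-9a (owner helper244): the extension `E_z` attached to a smooth
`1`-cocycle is a coefficient module, and the class of the extension is the class of the cocycle.
-/
import Fermat.Agent.S56.Count.Defs

set_option autoImplicit false

namespace Fermat.Agent.S56.Count

open Fermat.Agent.S55 Fermat.Agent.S55.FB

variable {G N : Type} [Group G] [AddCommGroup N] [DistribMulAction G N] {p : ℕ}

theorem finite_extMod [NeZero p] [Finite N] (D : ExtData G N p) : Finite (ExtMod D) :=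
  inferInstanceAs (Finite (N × Fp p))

private theorem ExtCoef.nsmul_fp (c : Fp p) : p • c = 0 := by
  have h : ∀ c : ZMod p, p • c = 0 := fun c => by
    rw [nsmul_eq_mul, ZMod.natCast_self, zero_mul]
  exact h c

theorem nsmul_extMod (D : ExtData G N p) (x : ExtMod D) : p • x = 0 := by
  apply ExtMod.ext
  · rw [map_nsmul, D.ptors, map_zero]
  · rw [map_nsmul, ExtCoef.nsmul_fp, map_zero]

theorem smooth_extMod {𝓝 : LevelSys G} [Smooth 𝓝 N] (z : Zsm 𝓝 N 1) (hN : ∀ n : N, p • n = 0) :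
    Smooth 𝓝 (ExtMod (ExtData.ofZsm z hN)) := by
  refine ⟨fun x => ?_⟩
  obtain ⟨N₁, hN₁, h₁⟩ := Smooth.exists_fix (𝓝 := 𝓝) (ExtMod.fst (ExtData.ofZsm z hN) x)
  obtain ⟨N₂, hN₂, h₂⟩ := z.2.1
  obtain ⟨N₃, hN₃, hle⟩ := 𝓝.directed N₁ hN₁ N₂ hN₂
  refine ⟨N₃, hN₃, fun u hu => ?_⟩
  have hz : (ExtData.ofZsm z hN).z u = 0 := by
    rw [← (ExtData.ofZsm z hN).z_one]
    exact (h₂ (fun _ => 1) (fun _ => u) fun _ => by
      rw [inv_one, one_mul]
      exact (hle hu).2).symm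
  apply ExtMod.ext
  · rw [ExtMod.fst_smul, hz, GPair.zero_right, add_zero, h₁ u (hle hu).1]
  · rw [ExtMod.snd_smul]

/-- the class of the extension is the class of the cocycle -/
theorem delta_oneFp {𝓝 : LevelSys G} (z : Zsm 𝓝 N 1) (hN : ∀ n : N, p • n = 0)
    [Smooth 𝓝 (ExtMod (ExtData.ofZsm z hN))] :
    Hsm.delta (ExtMod.shortExact (ExtData.ofZsm z hN)) 0 (oneFp 𝓝 p) = Hsm.mk 𝓝 N 1 z := by
  rw [oneFp, Hsm.H0equiv_symm_apply]
  refine Hsm.delta_mk _ _ z ⟨fun _ => ExtMod.mk (ExtData.ofZsm z hN) 0 (Fp.of p 1),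
    mem_Csm_zero _, rfl, ?_⟩
  funext (g : Fin 1 → G)
  rw [dd_zero_apply, cmap_apply]
  have hg : g = fun _ => g 0 := by
    funext i
    rw [Fin.fin_one_eq_zero i]
  have hsc : (ExtData.ofZsm z hN).sc (Fp.of p 1) ((ExtData.ofZsm z hN).z (g 0)) =
      (z : (Fin 1 → G) → N) g := by
    have h1 := fpPair_intCast p G N hN 1 ((ExtData.ofZsm z hN).z (g 0))
    rw [Int.cast_one, one_smul] at h1
    refine Eq.trans h1 ?_
    show (z : (Fin 1 → G) → N) (fun _ => g 0) = (z : (Fin 1 → G) → N) g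
    rw [← hg]
  apply ExtMod.ext
  · show (z : (Fin 1 → G) → N) g = (g 0 • (0 : N) +
      (ExtData.ofZsm z hN).sc (Fp.of p 1) ((ExtData.ofZsm z hN).z (g 0))) - 0
    rw [hsc, smul_zero, sub_zero]
    exact (zero_add _).symm
  · rw [map_sub, ExtMod.snd_smul, sub_self]
    rfl

theorem isCoef_extMod {S : Finset Nat.Primes} [Fact p.Prime] {N : Type} [AddCommGroup N]
    [DistribMulAction GQ N] (hN : IsCoef S p N) (z : Zsm (lvlS S) N 1) :
    IsCoef S p (ExtMod (ExtData.ofZsm z hN.ptors)) := by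
  have := hN.finite
  have := hN.smooth
  have : NeZero p := ⟨(Fact.out : p.Prime).ne_zero⟩
  exact ⟨finite_extMod _, nsmul_extMod _, smooth_extMod z hN.ptors⟩

end Fermat.Agent.S56.Count
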