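/-
S56 / block COUNT, node CNT-2: endomorphisms of `μ_p` are scalars; the invariant maps of a contract
are injective; `H^2_q(μ_p) ≠ 0`.   Owner: helper206.
-/
import Fermat.Agent.S56.Count.Defs
import Fermat.Agent.S55.Bridge.MuCoef

set_option autoImplicit false

namespace Fermat.Agent.S56.Count

open Fermat.Agent.S55 Fermat.Agent.S55.FB

variable {S : Finset Nat.Primes} {p : ℕ} [Fact p.Prime]
variable {N M : Type} [AddCommGroup N] [DistribMulAction GQ N] [AddCommGroup M]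
  [DistribMulAction GQ M]

/-- a generator of `μ_p`, as a local module -/
theorem MuBasic.exists_generator (p : ℕ) [Fact p.Prime] (q : Nat.Primes) :
    ∃ ζ : ResMod (ιv q) (Mu p), ζ ≠ 0 ∧ ∀ x : ResMod (ιv q) (Mu p), ∃ n : ℕ, x = n • ζ := by
  obtain ⟨ζ, h0, hgen, -, -⟩ := Bridge.exists_generator_Mu p
  exact ⟨ResMod.toRes (ιv q) ζ, h0, fun x => hgen x⟩

/-- local endomorphisms of `μ_p` are scalars -/
theorem exists_zsmul_of_homLoc (q : Nat.Primes) (f : HomLoc q (Mu p) (Mu p)) :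
    ∃ k : ℤ, ∀ x, f x = k • x := by
  obtain ⟨ζ, -, hgen⟩ := MuBasic.exists_generator p q
  obtain ⟨k, hk⟩ := hgen (f ζ)
  refine ⟨k, fun x => ?_⟩
  obtain ⟨n, rfl⟩ := hgen x
  rw [map_nsmul, hk, natCast_zsmul, smul_comm]

/-- the invariant maps of a contract are injective (LD₁ for `μ_p`) -/
theorem t_injective (C : Contract S p) {q : Nat.Primes} (hq : q ∈ S) :
    Function.Injective (C.t q) := by
  rw [injective_iff_map_eq_zero]
  intro x hx
  refine C.LD₁ (Mu p) C.coefMu q hq x fun f => ?_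
  obtain ⟨k, hk⟩ := exists_zsmul_of_homLoc q f
  rw [Hsm.map_zsmul' k hk 2 x, map_zsmul, hx, smul_zero]

/-- `H^2_q(μ_p) ≠ 0` (LD₂ for `μ_p`) -/
theorem exists_t_ne_zero (C : Contract S p) {q : Nat.Primes} (hq : q ∈ S) :
    ∃ x : Hloc q (Mu p) 2, C.t q x ≠ 0 := by
  by_contra hcon
  have h : ∀ x : Hloc q (Mu p) 2, C.t q x = 0 := fun x => by_contra fun hx => hcon ⟨x, hx⟩
  obtain ⟨ζ, h0, -⟩ := MuBasic.exists_generator p q
  exact h0 (C.LD₂ (Mu p) C.coefMu q hq (DistribMulActionHom.id (Gv q))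
    (fun x => by rw [Hsm.map_id' (fun _ => rfl) 2 x]; exact h x) ζ)

end Fermat.Agent.S56.Count
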