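/-
S56 / block COUNT, task S56-CNT-9d (helper120): **C7** for the evaluation pairing
`N × Hom(N, μ_p) → μ_p`: a class `b ∈ H^1_S(N)` with `loc_q b ≠ 0` pairs nontrivially with some
class of `H^1_q(Hom(N, μ_p))`.
-/
import Fermat.Agent.S56.Count.Defs
import Fermat.Agent.S55.Formal.HomDual
import Fermat.Agent.S55.Formal.ResNat
import Fermat.Agent.S55.FB.CupDelta
import Fermat.Agent.S56.Count.MuBasic
import Fermat.Agent.S56.Count.ExtCoef
import Fermat.Agent.S56.Count.Vanish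

set_option autoImplicit false

namespace Fermat.Agent.S56.Count

open Fermat.Agent.S55 Fermat.Agent.S55.FB

variable {S : Finset Nat.Primes} {p : ℕ} [Fact p.Prime]
variable {N M : Type} [AddCommGroup N] [DistribMulAction GQ N] [AddCommGroup M]
  [DistribMulAction GQ M]

/-- **C7** for the evaluation pairing `N × Hom(N, μ_p) → μ_p`. -/
theorem exists_cup11_ev_ne_zero (C : Contract S p) (hN : IsCoef S p N) [Smooth lvlAll (HomMod N (Mu p))]
    {q : Nat.Primes} (hq : q ∈ S) (b : Hsm (lvlS S) N 1) (hb : locS S N q 1 b ≠ 0) :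
    ∃ a : Hloc q (HomMod N (Mu p)) 1,
      cupLoc (GPair.ev GQ N (Mu p)) q (locS S N q 1 b) a ≠ 0 := by
  obtain ⟨z, rfl⟩ := Hsm.mk_surjective 1 b
  have hE : IsCoef S p (ExtMod (ExtData.ofZsm z hN.ptors)) := isCoef_extMod hN z
  have : Smooth (lvlS S) (ExtMod (ExtData.ofZsm z hN.ptors)) := hE.smooth
  have : Finite (ExtMod (ExtData.ofZsm z hN.ptors)) := hE.finite
  have : Smooth lvlAll (ExtMod (ExtData.ofZsm z hN.ptors)) := smooth_lvlAll_of_lvlS S _
  have : Smooth lvlAll (HomMod (ExtMod (ExtData.ofZsm z hN.ptors)) (Mu p)) :=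
    Formal.smooth_homMod lvlAll
  have hs := ExtMod.shortExact (ExtData.ofZsm z hN.ptors)
  have hs' := Formal.shortExact_dual p (Mu p) hs hN.ptors hE.ptors
  have hsr := Formal.shortExact_res (ιv q) hs
  have hsr' := Formal.shortExact_res (ιv q) hs'
  obtain ⟨x₀, hx₀⟩ := exists_t_ne_zero C hq
  obtain ⟨y, hy⟩ := exists_cup02_oneFp_eq S q x₀
  obtain ⟨m', hm'⟩ := (Hsm.exact_delta_map (𝓝 := lvlLoc q) hsr' 1 y).1
    (map_precomp_proj_eq_zero C hN z hq hb y)
  refine ⟨m', fun h0 => hx₀ ?_⟩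
  have key := cup02_delta (𝓝 := lvlLoc q) hsr hsr'
    ((GPair.ev GQ N (Mu p)).res (ιv q))
    ((GPair.ev GQ (ExtMod (ExtData.ofZsm z hN.ptors)) (Mu p)).res (ιv q))
    ((GPair.ev GQ (Fp p) (Mu p)).res (ιv q))
    (fun _ _ => rfl) (fun _ _ => rfl)
    (locS S (Fp p) q 0 (oneFp (lvlS S) p)) m'
  have hδ : Hsm.delta hsr 0 (locS S (Fp p) q 0 (oneFp (lvlS S) p))
      = locS S N q 1 (Hsm.mk (lvlS S) N 1 z) := by
    rw [← delta_oneFp z hN.ptors]
    exact (Formal.res_delta (ιv q) (lvlS_comap_le_lvlLoc S q) hs hsr 0 (oneFp (lvlS S) p)).symm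
  rw [hm', hy, hδ] at key
  have h0' : cup11 (lvlLoc q) ((GPair.ev GQ N (Mu p)).res (ιv q))
      (locS S N q 1 (Hsm.mk (lvlS S) N 1 z)) m' = 0 := h0
  rw [key, h0', neg_zero, map_zero]

end Fermat.Agent.S56.Count
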