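/-
S56 / block COUNT, node C7 (task S56-CNT-9e; sub-architect helper235, proof helper199).
-/
import Fermat.Agent.S56.Count.Defs
import Fermat.Agent.S55.FB.CupAdj
import Fermat.Agent.S55.Formal.HomDual
import Fermat.Agent.S55.Bridge.MuCoef
import Fermat.Agent.S56.Count.Perfect
import Fermat.Agent.S56.Count.NondegEv

set_option autoImplicit false

namespace Fermat.Agent.S56.Count

open Fermat.Agent.S55 Fermat.Agent.S55.FB

variable {S : Finset Nat.Primes} {p : ℕ} [Fact p.Prime]
variable {N M : Type} [AddCommGroup N] [DistribMulAction GQ N] [AddCommGroup M]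
  [DistribMulAction GQ M]

/-- the inverse of a bijective equivariant additive map -/
private noncomputable def Nondeg.invHom {G A B : Type} [Group G] [AddCommGroup A]
    [DistribMulAction G A] [AddCommGroup B] [DistribMulAction G B] (f : A →+[G] B)
    (hf : Function.Bijective f) : B →+[G] A where
  toFun := (Equiv.ofBijective f hf).symm
  map_smul' g b := by
    apply hf.1
    have h1 : ∀ c : B, f ((Equiv.ofBijective f hf).symm c) = c :=
      fun c => (Equiv.ofBijective f hf).apply_symm_apply c
    show f ((Equiv.ofBijective f hf).symm (g • b)) = f (g • (Equiv.ofBijective f hf).symm b)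
    rw [h1, map_smul f, h1]
  map_zero' := by
    apply hf.1
    have h1 : ∀ c : B, f ((Equiv.ofBijective f hf).symm c) = c :=
      fun c => (Equiv.ofBijective f hf).apply_symm_apply c
    rw [h1, map_zero]
  map_add' x y := by
    apply hf.1
    have h1 : ∀ c : B, f ((Equiv.ofBijective f hf).symm c) = c :=
      fun c => (Equiv.ofBijective f hf).apply_symm_apply c
    rw [h1, map_add f, h1, h1]

private theorem Nondeg.apply_invHom {G A B : Type} [Group G] [AddCommGroup A]
    [DistribMulAction G A] [AddCommGroup B] [DistribMulAction G B] (f : A →+[G] B)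
    (hf : Function.Bijective f) (b : B) : f (Nondeg.invHom f hf b) = b :=
  (Equiv.ofBijective f hf).apply_symm_apply b

/-- **C7** (formal nondegeneracy, replaces local Tate duality in degree `(1, 1)`). -/
theorem exists_cupLoc_ne_zero [Smooth lvlAll M] (C : Contract S p) (hN : IsCoef S p N)
    (hM : IsCoef S p M) (e : GPair GQ N M (Mu p)) (he : e.IsPerfect)
    {q : Nat.Primes} (hq : q ∈ S) (b : Hsm (lvlS S) N 1) (hb : locS S N q 1 b ≠ 0) :
    ∃ a : Hloc q M 1, cupLoc e q (locS S N q 1 b) a ≠ 0 := by
  have := hN.finite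
  have := hM.finite
  have := hN.smooth
  have : Smooth lvlAll N := smooth_lvlAll_of_lvlS S N
  have : Smooth lvlAll (HomMod N (Mu p)) := Formal.smooth_homMod lvlAll
  have hbij := pairHom_bijective (Bridge.cardMu p) e he
  obtain ⟨m', hm'⟩ := exists_cup11_ev_ne_zero C hN hq b hb
  let ψ : HomMod N (Mu p) →+[GQ] M := Nondeg.invHom (pairHom e) hbij
  refine ⟨Hsm.map (ResMod.map (ιv q) ψ) 1 m', ?_⟩
  have key := cup11_adj (𝓝 := lvlLoc q) (e.res (ιv q)) ((GPair.ev GQ N (Mu p)).res (ιv q))
    (DistribMulActionHom.id (Gv q)) (ResMod.map (ιv q) ψ) (fun a φ => by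
      have h1 : pairHom e (ψ φ) = φ := Nondeg.apply_invHom (pairHom e) hbij φ
      have h2 := congrArg (fun χ : HomMod N (Mu p) => χ a) h1
      exact h2.symm) (locS S N q 1 b) m'
  rw [Hsm.map_id] at key
  intro h0
  apply hm'
  show cup11 (lvlLoc q) ((GPair.ev GQ N (Mu p)).res (ιv q)) (locS S N q 1 b) m' = 0
  rw [key]
  exact h0

end Fermat.Agent.S56.Count
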