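/-
S56 / block COUNT : `Count/DSelZero.lean` (task S56-CNT-11), COMPLETE PROOF, parked in WIP while the
dependencies Nondeg, LvlMono, Inf are stubs (then: move to `Count/DSelZero.lean`, change 3 imports).
-/
import Fermat.Agent.S56.Count.Defs
import Fermat.Agent.S56.Count.Nondeg
import Fermat.Agent.S56.Count.LvlMono
import Fermat.Agent.S56.Count.Inf

set_option autoImplicit false

namespace Fermat.Agent.S56.Count

open Fermat.Agent.S55 Fermat.Agent.S55.FB

variable {S₀ S : Finset Nat.Primes} {p : ℕ} [Fact p.Prime]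
variable {N M : Type} [AddCommGroup N] [DistribMulAction GQ N] [AddCommGroup M]
  [DistribMulAction GQ M]

/-- **T4** : if every nonzero class of the dual Selmer group for `S₀` is detected at a prime of
`S \ S₀`, the dual Selmer group for `S` (no condition on `M` at the new primes) vanishes. -/
theorem DSel_extend_eq_bot [Smooth lvlAll M] (h : S₀ ⊆ S) (C : Contract S p) (hN : IsCoef S₀ p N)
    (hM : IsCoef S₀ p M) (e : GPair GQ N M (Mu p)) (he : e.IsPerfect) (L₀ : LocCond S₀ M)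
    (hsel : ∀ b₀ ∈ DSel S₀ e L₀, b₀ ≠ 0 → ∃ q ∈ S, q ∉ S₀ ∧ locS S₀ N q 1 b₀ ≠ 0) :
    DSel S e (L₀.extend S) = ⊥ := by
  rw [eq_bot_iff]
  intro b hb
  rw [AddSubgroup.mem_bot]
  rw [mem_DSel] at hb
  -- `b` is locally trivial at the new primes
  have hloc : ∀ q ∈ S, q ∉ S₀ → locS S N q 1 b = 0 := by
    intro q hq hq0
    by_contra hne
    obtain ⟨a, ha⟩ := exists_cupLoc_ne_zero C (IsCoef.mono h hN) (IsCoef.mono h hM) e he hq b hne
    refine ha (hb ⟨q, hq⟩ a ?_)
    rw [LocCond.extend_of_not_mem S L₀ ⟨q, hq⟩ hq0]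
    exact AddSubgroup.mem_top a
  obtain ⟨b₀, rfl⟩ := exists_refine_eq (lvlS_mono h) hN b hloc
  have hb₀ : b₀ ∈ DSel S₀ e L₀ := by
    rw [mem_DSel]
    intro q l hl
    have h1 := hb ⟨q.1, h q.2⟩ l (by
      rw [LocCond.extend_of_mem S L₀ ⟨q.1, h q.2⟩ q.2]
      exact hl)
    rwa [locS_refine h] at h1
  have hz : b₀ = 0 := by
    by_contra hne
    obtain ⟨q, hq, hq0, hq1⟩ := hsel b₀ hb₀ hne
    apply hq1
    rw [← locS_refine h]
    exact hloc q hq hq0
  rw [hz, map_zero]

end Fermat.Agent.S56.Count
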