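/-
S56 / block COUNT, node S56-CNT-6a (helper162): `#H^0_q(M) ≤ #H^2_q(N)` for a pairing
`e : N × M → μ_p` with trivial right kernel, from the two local nondegeneracy fields of the
formal contract.
-/
import Fermat.Agent.S56.Count.Defs
import Fermat.Agent.S55.Formal.F1
import Fermat.Agent.S55.Exist.Abs.HomCard

set_option autoImplicit false

namespace Fermat.Agent.S56.Count

open Fermat.Agent.S55 Fermat.Agent.S55.FB

variable {S : Finset Nat.Primes} {p : ℕ} [Fact p.Prime]
variable {N M : Type} [AddCommGroup N] [DistribMulAction GQ N] [AddCommGroup M]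
  [DistribMulAction GQ M]

/-- `#H^0_q(M) ≤ #H^2_q(N)` : `H^0_q(M) ↪ Hom_{G_q}(N, μ_p) ↪ H^2_q(N)^∨` (LD₁, LD₂). -/
theorem card_H0_le_card_H2_loc (C : Contract S p) (hN : IsCoef S p N) (hM : IsCoef S p M)
    (e : GPair GQ N M (Mu p)) (he : ∀ m, (∀ n, e n m = 0) → m = 0) {q : Nat.Primes} (hq : q ∈ S) :
    Finite (Hloc q N 2) ∧ Finite (Hloc q M 0) ∧
      Nat.card (Hloc q M 0) ≤ Nat.card (Hloc q N 2) := by
  have hfN := hN.finite
  have hfMu := C.coefMu.finite
  have hp : p.Prime := Fact.out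
  have h2 : Finite (Hloc q N 2) :=
    Formal.finite_H2 (ιv q) (C.t q) (Formal.pairH_left (ιv q) (C.t q) (C.LD₁ N hN q hq))
  have hfM := hM.finite
  have h0 : Finite (Hloc q M 0) := Formal.finite_H0 (ιv q)
  refine ⟨h2, h0, ?_⟩
  obtain ⟨hfin, hle⟩ := Exist.Abs.card_addHom_zmod_le hp (Hloc q N 2)
  refine le_trans ?_ hle
  -- the pairing with the variables exchanged, restricted to the decomposition group
  let e' : GPair (Gv q) (ResMod (ιv q) M) (ResMod (ιv q) N) (ResMod (ιv q) (Mu p)) :=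
    (e.res (ιv q)).flip
  let F : inv0 (Gv q) (ResMod (ιv q) M) → HomLoc q N (Mu p) := fun m => e'.homOfInv m.1 m.2
  let Φ : Hloc q M 0 → (Hloc q N 2 →+ ZMod p) := fun y =>
    (C.t q).comp (Hsm.map (F (Hsm.H0equiv y)) 2)
  refine Nat.card_le_card_of_injective Φ ?_
  intro y y' hyy
  apply (Hsm.H0equiv (𝓝 := lvlLoc q) (A := ResMod (ιv q) M)).injective
  set m := Hsm.H0equiv y with hm
  set m' := Hsm.H0equiv y' with hm'
  have hsub : ∀ n, F (m - m') n = F m n - F m' n := fun n => e'.sub_left m.1 m'.1 n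
  have hz : ∀ n, F (m - m') n = 0 := by
    refine C.LD₂ N hN q hq (F (m - m')) fun x => ?_
    rw [Hsm.map_sub' hsub 2 x, map_sub, sub_eq_zero]
    exact DFunLike.congr_fun hyy x
  have hzero : (ResMod.toRes (ιv q)).symm (m - m').1 = 0 := by
    apply he
    intro n
    have := hz (ResMod.toRes (ιv q) n)
    exact this
  have h3 : (m - m').1 = 0 := hzero
  have h4 : m - m' = 0 := Subtype.ext h3
  exact sub_eq_zero.1 h4

end Fermat.Agent.S56.Count
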