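/-
S56 / block COUNT : `Count/HTwoGlob` (task S56-CNT-6b, helper234).
-/
import Fermat.Agent.S56.Count.Defs
import Fermat.Agent.S55.Formal.F1
import Fermat.Agent.S55.Bridge.MuCoef
import Fermat.Agent.S56.Count.Perfect
import Fermat.Agent.S56.Count.HTwoLoc

set_option autoImplicit false

namespace Fermat.Agent.S56.Count

open Fermat.Agent.S55 Fermat.Agent.S55.FB

variable {S : Finset Nat.Primes} {p : ℕ} [Fact p.Prime]
variable {N M : Type} [AddCommGroup N] [DistribMulAction GQ N] [AddCommGroup M]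
  [DistribMulAction GQ M]

/-- no invariants in `M` ⟹ no equivariant maps `N → μ_p` -/
theorem hom_eq_zero_of_inv_eq_zero (hN : IsCoef S p N) (hM : IsCoef S p M)
    (e : GPair GQ N M (Mu p)) (he : e.IsPerfect) (h0 : ∀ m : M, (∀ g : GQ, g • m = m) → m = 0)
    (f : N →+[GQ] Mu p) (n : N) : f n = 0 := by
  have := hN.finite
  have := hM.finite
  have hbij := pairHom_bijective (Bridge.cardMu p) e he
  obtain ⟨m, hm⟩ := hbij.2 (HomMod.of (f : N →+ Mu p))
  have hinv : ∀ g : GQ, g • m = m := by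
    intro g
    apply hbij.1
    rw [map_smul, hm]
    apply HomMod.ext
    intro a
    rw [HomMod.smul_apply]
    change g • f (g⁻¹ • a) = f a
    rw [map_smul, smul_inv_smul]
  have hm0 : m = 0 := h0 m hinv
  have h1 : (HomMod.of (f : N →+ Mu p)) n = 0 := by
    rw [← hm, hm0, map_zero]
    rfl
  exact h1

/-- (PT₁) : `H^2_S(N) → ∏_q H^2_q(N)` is onto if `Hom_G(N, μ_p) = 0` -/
theorem locS_two_surjective (C : Contract S p) (hN : IsCoef S p N)
    (h0 : ∀ (f : N →+[GQ] Mu p) (n : N), f n = 0) (y : ∀ q : ↥S, Hloc q.1 N 2) :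
    ∃ x : Hsm (lvlS S) N 2, ∀ q : ↥S, locS S N q.1 2 x = y q := by
  refine C.PT₁ N hN y fun f => Finset.sum_eq_zero fun q _ => ?_
  rw [Hsm.map_zero' (φ := ResMod.map (ιv q.1) f) (fun a => h0 f a), map_zero]

/-- **C3** -/
theorem card_H2_ge (hS : S.Nonempty) (C : Contract S p) (hN : IsCoef S p N) (hM : IsCoef S p M)
    (e : GPair GQ N M (Mu p)) (he : e.IsPerfect) (h0 : ∀ m : M, (∀ g : GQ, g • m = m) → m = 0) :
    Finite (Hsm (lvlS S) N 2) ∧
      Nat.card (Sha S N 2) * ∏ q : ↥S, Nat.card (Hloc q.1 M 0) ≤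
        Nat.card (Hsm (lvlS S) N 2) := by
  have hsurj : Function.Surjective (Formal.locAll S N 2) := by
    intro y
    obtain ⟨x, hx⟩ := locS_two_surjective C hN (hom_eq_zero_of_inv_eq_zero hN hM e he h0) y
    exact ⟨x, funext hx⟩
  have hfinSha : Finite (Sha S N 2) := (Formal.F1 hS C N hN).1
  have hfinP : Finite (∀ q : ↥S, Hloc q.1 N 2) := Formal.finite_P2 C hN
  have hker : (Formal.locAll S N 2).ker = Sha S N 2 := Formal.ker_locAll S N 2
  have hfinK : Finite (Formal.locAll S N 2).ker := by rw [hker]; exact hfinSha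
  let E := QuotientAddGroup.quotientKerEquivOfSurjective (Formal.locAll S N 2) hsurj
  have hfinQ : Finite (Hsm (lvlS S) N 2 ⧸ (Formal.locAll S N 2).ker) :=
    Finite.of_equiv _ E.symm.toEquiv
  have hfin : Finite (Hsm (lvlS S) N 2) :=
    Finite.of_addSubgroup_quotient (H := (Formal.locAll S N 2).ker)
  refine ⟨hfin, ?_⟩
  rw [AddSubgroup.card_eq_card_quotient_mul_card_addSubgroup (Formal.locAll S N 2).ker,
    Nat.card_congr E.toEquiv, hker, Nat.card_pi, mul_comm]
  refine Nat.mul_le_mul_right _ (Finset.prod_le_prod' fun q _ => ?_)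
  exact (card_H0_le_card_H2_loc C hN hM e he.2 q.2).2.2

end Fermat.Agent.S56.Count
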