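/-
S56 / block COUNT, node C1 (task S56-CNT-1, helper292): the abstract counting inequality.
-/
import Mathlib
import Fermat.Agent.S55.Exist.Abs.HomCard

set_option autoImplicit false

namespace Fermat.Agent.S56.Count

/-- `#A = #ker * #range` -/
private theorem card_eq_ker_mul_range {A Λ : Type} [AddCommGroup A] [AddCommGroup Λ]
    (f : A →+ Λ) : Nat.card A = Nat.card f.range * Nat.card f.ker := by
  rw [AddSubgroup.card_eq_card_quotient_mul_card_addSubgroup f.ker,
    Nat.card_congr (QuotientAddGroup.quotientKerEquivRange f).toEquiv]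

/-- **C1** (abstract counting inequality).  `B / B^⊥` embeds in the dual of `Λ / lam(A)`. -/
theorem abs_count {A B Λ : Type} [AddCommGroup A] [AddCommGroup B] [AddCommGroup Λ] [Finite A]
    [Finite Λ] (p : ℕ) [Fact p.Prime] (lam : A →+ Λ) (P : Λ →+ B →+ ZMod p)
    (h : ∀ a b, P (lam a) b = 0) :
    Nat.card A * Nat.card B ≤
      Nat.card lam.ker * Nat.card Λ * Nat.card {b : B // ∀ l, P l b = 0} := by
  -- the map `B → Hom(Λ / lam(A), ℤ/p)`
  let Ψ : B →+ ((Λ ⧸ lam.range) →+ ZMod p) :=
    { toFun := fun b => QuotientAddGroup.lift lam.range (P.flip b) (fun l hl => by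
        obtain ⟨a, rfl⟩ := hl
        exact h a b)
      map_zero' := by
        ext l
        simp
      map_add' := fun b b' => by
        ext l
        simp }
  have hker : ∀ b : B, b ∈ Ψ.ker ↔ ∀ l, P l b = 0 := by
    intro b
    rw [AddMonoidHom.mem_ker]
    constructor
    · intro hb l
      have := DFunLike.congr_fun hb (l : Λ ⧸ lam.range)
      exact this
    · intro hb
      ext l
      exact hb l
  have hcardker : Nat.card {b : B // ∀ l, P l b = 0} = Nat.card Ψ.ker :=
    Nat.card_congr (Equiv.subtypeEquivRight fun b => (hker b).symm)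
  obtain ⟨hfin, hle⟩ := Fermat.Agent.S55.Exist.Abs.card_addHom_zmod_le (p := p) Fact.out
    (Λ ⧸ lam.range)
  have hrange : Nat.card Ψ.range ≤ Nat.card (Λ ⧸ lam.range) :=
    (Nat.card_le_card_of_injective _ Subtype.val_injective).trans hle
  have hΛ : Nat.card Λ = Nat.card (Λ ⧸ lam.range) * Nat.card lam.range :=
    AddSubgroup.card_eq_card_quotient_mul_card_addSubgroup lam.range
  rw [hcardker, card_eq_ker_mul_range lam, card_eq_ker_mul_range Ψ, hΛ]
  calc Nat.card lam.range * Nat.card lam.ker * (Nat.card Ψ.range * Nat.card Ψ.ker)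
      = Nat.card Ψ.range * (Nat.card lam.range * Nat.card lam.ker * Nat.card Ψ.ker) := by ring
    _ ≤ Nat.card (Λ ⧸ lam.range) * (Nat.card lam.range * Nat.card lam.ker * Nat.card Ψ.ker) :=
        Nat.mul_le_mul_right _ hrange
    _ = Nat.card lam.ker * (Nat.card (Λ ⧸ lam.range) * Nat.card lam.range) * Nat.card Ψ.ker := by
        ring

end Fermat.Agent.S56.Count
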