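/-
S56 / block COUNT : reciprocity for the cup product of two global classes (task S56-CNT-3).
Owner: helper166.
-/
import Fermat.Agent.S56.Count.Defs
import Fermat.Agent.S55.FB.CupRes

set_option autoImplicit false

namespace Fermat.Agent.S56.Count

open Fermat.Agent.S55 Fermat.Agent.S55.FB

variable {S : Finset Nat.Primes} {p : ℕ} [Fact p.Prime]
variable {N M : Type} [AddCommGroup N] [DistribMulAction GQ N] [AddCommGroup M]
  [DistribMulAction GQ M]

/-- **C2** (isotropy) : reciprocity for the cup product of two global classes. -/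
theorem sum_t_cupLoc_eq_zero [Smooth lvlAll M] (C : Contract S p) (hM : IsCoef S p M)
    (e : GPair GQ N M (Mu p)) (b : Hsm (lvlS S) N 1) (a : Hsm (lvlS S) M 1) :
    ∑ q : ↥S, C.t q.1 (cupLoc e q.1 (locS S N q.1 1 b) (locS S M q.1 1 a)) = 0 := by
  have : Smooth (lvlS S) M := hM.smooth
  have h := C.PT₀ (Mu p) C.coefMu (cup11 (lvlS S) e b a) (DistribMulActionHom.id GQ)
  rw [← h]
  refine Finset.sum_congr rfl fun q _ => ?_
  rw [Hsm.map_id' (fun _ => rfl)]
  congr 1
  exact (cup11_res (ιv q.1) (lvlLoc q.1) (lvlS_comap_le_lvlLoc S q.1) e b a).symm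

end Fermat.Agent.S56.Count
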