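/-
S56 / block COUNT, task S56-CNT-5 (helper123): `#Sha^1_S(M) = #Sha^2_S(N)`.
-/
import Fermat.Agent.S56.Count.Defs
import Fermat.Agent.S56.Count.Perfect
import Fermat.Agent.S55.Formal.F1
import Fermat.Agent.S55.Bridge.MuCoef

set_option autoImplicit false

namespace Fermat.Agent.S56.Count

open Fermat.Agent.S55 Fermat.Agent.S55.FB

variable {S : Finset Nat.Primes} {p : ℕ} [Fact p.Prime]
variable {N M : Type} [AddCommGroup N] [DistribMulAction GQ N] [AddCommGroup M]
  [DistribMulAction GQ M]

/-- the inverse of a bijective equivariant map -/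
theorem ShaOne.exists_inverse {A B : Type} [AddCommGroup A] [DistribMulAction GQ A]
    [AddCommGroup B] [DistribMulAction GQ B] (φ : A →+[GQ] B) (hφ : Function.Bijective φ) :
    ∃ ψ : B →+[GQ] A, (∀ a, ψ (φ a) = a) ∧ ∀ b, φ (ψ b) = b := by
  let e := Equiv.ofBijective φ hφ
  have he : ∀ a, e a = φ a := fun _ => rfl
  refine ⟨{ toFun := e.symm
            map_smul' := fun g b => ?_
            map_zero' := ?_
            map_add' := fun b b' => ?_ }, fun a => e.symm_apply_apply a,
    fun b => e.apply_symm_apply b⟩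
  · apply e.injective
    simp only [MonoidHom.id_apply, Equiv.apply_symm_apply]
    rw [he, map_smul, ← he, Equiv.apply_symm_apply]
  · apply e.injective
    rw [Equiv.apply_symm_apply, he, map_zero]
  · apply e.injective
    rw [Equiv.apply_symm_apply, he, map_add, ← he, ← he, Equiv.apply_symm_apply,
      Equiv.apply_symm_apply]

/-- a bijective equivariant map induces a bijection on `Sha` -/
theorem ShaOne.nonempty_equiv {A B : Type} [AddCommGroup A] [DistribMulAction GQ A]
    [AddCommGroup B] [DistribMulAction GQ B] (φ : A →+[GQ] B) (hφ : Function.Bijective φ)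
    (n : ℕ) : Nonempty (Sha S A n ≃ Sha S B n) := by
  obtain ⟨ψ, h₁, h₂⟩ := ShaOne.exists_inverse φ hφ
  exact ⟨{ toFun := fun x => ⟨Hsm.map φ n x.1, Formal.map_mem_Sha φ x.2⟩
           invFun := fun y => ⟨Hsm.map ψ n y.1, Formal.map_mem_Sha ψ y.2⟩
           left_inv := fun x => Subtype.ext (by
             show Hsm.map ψ n (Hsm.map φ n x.1) = x.1
             rw [← Hsm.map_comp]
             exact Hsm.map_id' h₁ n x.1)
           right_inv := fun y => Subtype.ext (by
             show Hsm.map φ n (Hsm.map ψ n y.1) = y.1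
             rw [← Hsm.map_comp]
             exact Hsm.map_id' h₂ n y.1) }⟩

/-- **C4** : `#Sha^1_S(M) = #Sha^2_S(N)` (S55.F1 for `N` and `M = Hom(N, μ_p)`). -/
theorem card_Sha_one_eq (hS : S.Nonempty) (C : Contract S p) (hN : IsCoef S p N)
    (hM : IsCoef S p M) (e : GPair GQ N M (Mu p)) (he : e.IsPerfect) :
    Finite (Sha S N 2) ∧ Finite (Sha S M 1) ∧ Nat.card (Sha S M 1) = Nat.card (Sha S N 2) := by
  obtain ⟨hfin, hcard⟩ := Formal.F1 hS C N hN
  have := hN.finite
  have := hM.finite
  have hbij : Function.Bijective (pairHom e) := pairHom_bijective (Bridge.cardMu p) e he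
  obtain ⟨E⟩ := ShaOne.nonempty_equiv (S := S) (pairHom e) hbij 1
  have h1 : Nat.card (Sha S M 1) = Nat.card (Sha S N 2) := by
    rw [hcard]
    exact Nat.card_congr E
  refine ⟨hfin, ?_, h1⟩
  apply Nat.finite_of_card_ne_zero
  rw [h1]
  exact Nat.card_pos.ne'

end Fermat.Agent.S56.Count
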