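/-
S56 / block COUNT, node S56-CNT-7 (sub-architect helper235, proof helper109):
the abstract counting inequality C1 applied to `A = Sel`, `B = H^1_S(N)`, `Λ = ∏ L_q`.
-/
import Fermat.Agent.S56.Count.Defs
import Fermat.Agent.S56.Count.Abs
import Fermat.Agent.S56.Count.MuBasic
import Fermat.Agent.S56.Count.Recip
import Fermat.Agent.S56.Count.ShaOne

set_option autoImplicit false

namespace Fermat.Agent.S56.Count

open Fermat.Agent.S55 Fermat.Agent.S55.FB

variable {S : Finset Nat.Primes} {p : ℕ} [Fact p.Prime]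
variable {N M : Type} [AddCommGroup N] [DistribMulAction GQ N] [AddCommGroup M]
  [DistribMulAction GQ M]

/-- The localisation map `Sel → ∏ L_q`. -/
noncomputable def SelCount.lam (L : LocCond S M) : ↥(Sel S L) →+ (∀ q : ↥S, ↥(L q)) where
  toFun x q := ⟨locS S M q.1 1 x.1, mem_Sel.1 x.2 q⟩
  map_zero' := funext fun q => Subtype.ext (map_zero (locS S M q.1 1))
  map_add' x y := funext fun q => Subtype.ext (map_add (locS S M q.1 1) x.1 y.1)

theorem SelCount.lam_apply (L : LocCond S M) (x : ↥(Sel S L)) (q : ↥S) :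
    ((SelCount.lam L x q : ↥(L q)) : Hloc q.1 M 1) = locS S M q.1 1 x.1 := rfl

/-- The pairing `∏ L_q × H^1_S(N) → 𝔽_p`. -/
noncomputable def SelCount.P [Smooth lvlAll M] (C : Contract S p) (e : GPair GQ N M (Mu p))
    (L : LocCond S M) : (∀ q : ↥S, ↥(L q)) →+ Hsm (lvlS S) N 1 →+ ZMod p :=
  AddMonoidHom.mk'
    (fun l => AddMonoidHom.mk'
      (fun b => ∑ q : ↥S, C.t q.1 (cupLoc e q.1 (locS S N q.1 1 b) (l q).1))
      (fun b b' => by
        simp only [map_add, AddMonoidHom.add_apply, Finset.sum_add_distrib]))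
    (fun l l' => by
      ext b
      simp only [AddMonoidHom.mk'_apply, AddMonoidHom.add_apply, Pi.add_apply,
        AddSubgroup.coe_add, map_add, Finset.sum_add_distrib])

theorem SelCount.P_apply [Smooth lvlAll M] (C : Contract S p) (e : GPair GQ N M (Mu p))
    (L : LocCond S M) (l : ∀ q : ↥S, ↥(L q)) (b : Hsm (lvlS S) N 1) :
    SelCount.P C e L l b = ∑ q : ↥S, C.t q.1 (cupLoc e q.1 (locS S N q.1 1 b) (l q).1) := rfl

/-- `ker (Sel → ∏ L_q) = Sha^1`. -/
noncomputable def SelCount.kerEquiv (L : LocCond S M) : ↥(SelCount.lam L).ker ≃ ↥(Sha S M 1) where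
  toFun x := ⟨x.1.1, mem_Sha_iff.2 fun q =>
    congrArg Subtype.val (congrFun (AddMonoidHom.mem_ker.1 x.2) q)⟩
  invFun y := ⟨⟨y.1, mem_Sel.2 fun q => by
      rw [mem_Sha_iff.1 y.2 q]
      exact zero_mem _⟩,
    AddMonoidHom.mem_ker.2 (funext fun q => Subtype.ext (mem_Sha_iff.1 y.2 q))⟩
  left_inv _ := rfl
  right_inv _ := rfl

theorem SelCount.forall_P_eq_zero_iff [Smooth lvlAll M] (C : Contract S p)
    (e : GPair GQ N M (Mu p)) (L : LocCond S M) (b : Hsm (lvlS S) N 1) :
    (∀ l, SelCount.P C e L l b = 0) ↔ b ∈ DSel S e L := by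
  classical
  rw [mem_DSel]
  constructor
  · intro h q l hl
    have h1 := h (Pi.single q ⟨l, hl⟩)
    rw [SelCount.P_apply, Finset.sum_eq_single q] at h1
    · rw [Pi.single_eq_same] at h1
      exact t_injective C q.2 (h1.trans (map_zero _).symm)
    · intro q' _ hq'
      rw [Pi.single_eq_of_ne hq']
      simp
    · intro hq
      exact absurd (Finset.mem_univ q) hq
  · intro h l
    rw [SelCount.P_apply]
    exact Finset.sum_eq_zero fun q _ => by rw [h q _ (l q).2, map_zero]

/-- C1 applied to `A = Sel`, `B = H^1_S(N)`, `Λ = ∏ L_q`. -/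
theorem card_Sel_mul_card_H1_le [Smooth lvlAll M] (hS : S.Nonempty) (C : Contract S p)
    (hN : IsCoef S p N) (hM : IsCoef S p M) (e : GPair GQ N M (Mu p)) (he : e.IsPerfect)
    (L : LocCond S M) (hL : ∀ q, Finite (L q)) :
    Finite (Sel S L) ∧
      Nat.card (Sel S L) * Nat.card (Hsm (lvlS S) N 1) ≤
        Nat.card (Sha S M 1) * (∏ q : ↥S, Nat.card (L q)) * Nat.card (DSel S e L) := by
  have : Finite (Sha S M 1) := (card_Sha_one_eq hS C hN hM e he).2.1
  have : Finite (∀ q : ↥S, ↥(L q)) := Pi.finite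
  have : Finite ↥(SelCount.lam L).ker := Finite.of_equiv _ (SelCount.kerEquiv L).symm
  have : Finite (↥(Sel S L) ⧸ (SelCount.lam L).ker) :=
    Finite.of_injective _ (QuotientAddGroup.kerLift_injective (SelCount.lam L))
  have hfin : Finite ↥(Sel S L) := Finite.of_addSubgroup_quotient (SelCount.lam L).ker
  refine ⟨hfin, ?_⟩
  have h := abs_count p (SelCount.lam L) (SelCount.P C e L) (fun a b => by
    rw [SelCount.P_apply]
    exact sum_t_cupLoc_eq_zero C hM e b a.1)
  rw [Nat.card_congr (SelCount.kerEquiv L), Nat.card_pi,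
    Nat.card_congr (Equiv.subtypeEquivRight (SelCount.forall_P_eq_zero_iff C e L))] at h
  exact h

end Fermat.Agent.S56.Count
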