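/-
S56 / block COUNT : proof of the node `GW` (task S56-CNT-8) against the stubs of its dependencies
`SelCount`, `ShaOne`, `HTwoGlob`.  To promote: copy to `Fermat/Agent/S56/Count/GW.lean` and replace the
three imports by the final files.
-/
import Fermat.Agent.S56.Count.SelCount
import Fermat.Agent.S56.Count.ShaOne
import Fermat.Agent.S56.Count.HTwoGlob

set_option autoImplicit false

namespace Fermat.Agent.S56.Count

open Fermat.Agent.S55 Fermat.Agent.S55.FB

variable {S : Finset Nat.Primes} {p : ℕ} [Fact p.Prime]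
variable {N M : Type} [AddCommGroup N] [DistribMulAction GQ N] [AddCommGroup M]
  [DistribMulAction GQ M]

/-- the arithmetic of the assembly -/
private theorem GW.arith {s κ h0 h1 h2 sh l d : ℕ} (hsh : 0 < sh) (hA : s * h1 ≤ sh * l * d)
    (hC : sh * h0 ≤ h2) (hEC : h2 * κ ≤ h1) : s * κ * h0 ≤ l * d := by
  apply Nat.le_of_mul_le_mul_left _ hsh
  calc sh * (s * κ * h0) = s * κ * (sh * h0) := by ring
    _ ≤ s * κ * h2 := Nat.mul_le_mul_left _ hC
    _ = s * (h2 * κ) := by ring
    _ ≤ s * h1 := Nat.mul_le_mul_left _ hEC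
    _ ≤ sh * l * d := hA
    _ = sh * (l * d) := by ring

/-- **The Greenberg–Wiles inequality.**  `κ = #N^{c = -1}` in the application (`hEC` = global Euler
characteristic of `N`, block EC). -/
theorem greenberg_wiles_le [Smooth lvlAll M] (hS : S.Nonempty) (C : Contract S p)
    (hN : IsCoef S p N) (hM : IsCoef S p M) (e : GPair GQ N M (Mu p)) (he : e.IsPerfect)
    (h0 : ∀ m : M, (∀ g : GQ, g • m = m) → m = 0) (κ : ℕ)
    (hEC : Nat.card (Hsm (lvlS S) N 2) * κ ≤ Nat.card (Hsm (lvlS S) N 1))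
    (L : LocCond S M) (hL : ∀ q, Finite (L q)) :
    Finite (Sel S L) ∧
      Nat.card (Sel S L) * κ * ∏ q : ↥S, Nat.card (Hloc q.1 M 0) ≤
        (∏ q : ↥S, Nat.card (L q)) * Nat.card (DSel S e L) := by
  obtain ⟨hfin, hA⟩ := card_Sel_mul_card_H1_le hS C hN hM e he L hL
  obtain ⟨hf2, -, hB⟩ := card_Sha_one_eq hS C hN hM e he
  obtain ⟨-, hC⟩ := card_H2_ge hS C hN hM e he h0
  refine ⟨hfin, ?_⟩
  rw [hB] at hA
  exact GW.arith Nat.card_pos hA hC hEC

end Fermat.Agent.S56.Count
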