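/-
S56 / block COUNT : proof of the top export `card_Sel_extend_le` (task S56-CNT-12) from
`greenberg_wiles_le` (CNT-8), `DSel_extend_eq_bot` (CNT-11), `IsCoef.mono` (CNT-10a) and
`card_H0_le_card_H2_loc` (CNT-6a).  No `sorry` of its own; only the import lines change when the
dependencies land.
-/
import Fermat.Agent.S56.Count.Defs
import Fermat.Agent.S56.Count.GW
import Fermat.Agent.S56.Count.DSelZero
import Fermat.Agent.S56.Count.LvlMono
import Fermat.Agent.S56.Count.HTwoLoc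

set_option autoImplicit false

namespace Fermat.Agent.S56.Count

open Fermat.Agent.S55 Fermat.Agent.S55.FB

variable {S₀ S : Finset Nat.Primes} {p : ℕ} [Fact p.Prime]
variable {N M : Type} [AddCommGroup N] [DistribMulAction GQ N] [AddCommGroup M]
  [DistribMulAction GQ M]

/-- **TOP EXPORT OF BLOCK COUNT** (T3 + T4 of the blueprint). -/
theorem card_Sel_extend_le [Smooth lvlAll M] (h : S₀ ⊆ S) (hS₀ : S₀.Nonempty) (C : Contract S p)
    (hN : IsCoef S₀ p N) (hM : IsCoef S₀ p M) (e : GPair GQ N M (Mu p)) (he : e.IsPerfect)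
    (h0 : ∀ m : M, (∀ g : GQ, g • m = m) → m = 0) (κ : ℕ) (hκ : 0 < κ)
    (hEC : Nat.card (Hsm (lvlS S) N 2) * κ ≤ Nat.card (Hsm (lvlS S) N 1))
    (L₀ : LocCond S₀ M) (hL₀ : ∀ q, Finite (L₀ q))
    (hloc₀ : ∏ q : ↥S₀, Nat.card (L₀ q) ≤ κ * ∏ q : ↥S₀, Nat.card (Hloc q.1 M 0))
    (hlocQ : ∀ q ∈ S, q ∉ S₀ → Finite (Hloc q M 1) ∧
      Nat.card (Hloc q M 1) ≤ κ * Nat.card (Hloc q M 0))
    (hsel : ∀ b₀ ∈ DSel S₀ e L₀, b₀ ≠ 0 → ∃ q ∈ S, q ∉ S₀ ∧ locS S₀ N q 1 b₀ ≠ 0) :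
    Finite (Sel S (L₀.extend S)) ∧ Nat.card (Sel S (L₀.extend S)) ≤ κ ^ (S \ S₀).card := by
  classical
  have hS : S.Nonempty := hS₀.mono h
  have hN' : IsCoef S p N := IsCoef.mono h hN
  have hM' : IsCoef S p M := IsCoef.mono h hM
  have hL : ∀ q : ↥S, Finite (L₀.extend S q) := by
    intro q
    by_cases hq : q.1 ∈ S₀
    · rw [LocCond.extend_of_mem S L₀ q hq]
      exact hL₀ ⟨q.1, hq⟩
    · rw [LocCond.extend_of_not_mem S L₀ q hq]
      have := (hlocQ q.1 q.2 hq).1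
      infer_instance
  obtain ⟨hfin, hGW⟩ := greenberg_wiles_le hS C hN' hM' e he h0 κ hEC (L₀.extend S) hL
  refine ⟨hfin, ?_⟩
  have hD : Nat.card (DSel S e (L₀.extend S)) = 1 := by
    rw [DSel_extend_eq_bot h C hN hM e he L₀ hsel]
    exact AddSubgroup.card_bot
  rw [hD, mul_one] at hGW
  -- the local terms as functions on `Nat.Primes`
  set G : Nat.Primes → ℕ := fun q =>
    if hq : q ∈ S₀ then Nat.card (L₀ ⟨q, hq⟩) else Nat.card (Hloc q M 1) with hG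
  set Z : Nat.Primes → ℕ := fun q => Nat.card (Hloc q M 0) with hZ
  have hcardL : ∀ q : ↥S, Nat.card (L₀.extend S q) = G q.1 := by
    intro q
    by_cases hq : q.1 ∈ S₀
    · rw [LocCond.extend_of_mem S L₀ q hq]
      simp only [hG, dif_pos hq]
    · rw [LocCond.extend_of_not_mem S L₀ q hq]
      simp only [hG, dif_neg hq]
      exact AddSubgroup.card_top
  have hZpos : ∀ q ∈ S, 0 < Z q := by
    intro q hq
    have := (card_H0_le_card_H2_loc C hN' hM' e he.2 hq).2.1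
    exact Nat.card_pos
  have e1 : ∏ q : ↥S, Nat.card (L₀.extend S q) = ∏ q ∈ S, G q := by
    rw [← Finset.prod_coe_sort S G]
    exact Finset.prod_congr rfl fun q _ => hcardL q
  have e2 : ∏ q : ↥S, Nat.card (Hloc q.1 M 0) = ∏ q ∈ S, Z q :=
    Finset.prod_coe_sort S Z
  have e3 : ∏ q : ↥S₀, Nat.card (L₀ q) = ∏ q ∈ S₀, G q := by
    rw [← Finset.prod_coe_sort S₀ G]
    refine Finset.prod_congr rfl fun q _ => ?_
    simp only [hG, dif_pos q.2]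
  have e4 : ∏ q : ↥S₀, Nat.card (Hloc q.1 M 0) = ∏ q ∈ S₀, Z q :=
    Finset.prod_coe_sort S₀ Z
  rw [e1, e2] at hGW
  rw [e3, e4] at hloc₀
  have hnew : ∏ q ∈ S \ S₀, G q ≤ κ ^ (S \ S₀).card * ∏ q ∈ S \ S₀, Z q := by
    calc ∏ q ∈ S \ S₀, G q ≤ ∏ q ∈ S \ S₀, (κ * Z q) := by
          refine Finset.prod_le_prod' fun q hq => ?_
          obtain ⟨hqS, hq0⟩ := Finset.mem_sdiff.1 hq
          simp only [hG, dif_neg hq0]
          exact (hlocQ q hqS hq0).2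
      _ = κ ^ (S \ S₀).card * ∏ q ∈ S \ S₀, Z q := by
          rw [Finset.prod_mul_distrib, Finset.prod_const]
  have hsplitG : ∏ q ∈ S, G q = (∏ q ∈ S \ S₀, G q) * ∏ q ∈ S₀, G q :=
    (Finset.prod_sdiff h).symm
  have hsplitZ : ∏ q ∈ S, Z q = (∏ q ∈ S \ S₀, Z q) * ∏ q ∈ S₀, Z q :=
    (Finset.prod_sdiff h).symm
  have hpos : 0 < κ * ∏ q ∈ S, Z q :=
    Nat.mul_pos hκ (Finset.prod_pos hZpos)
  refine Nat.le_of_mul_le_mul_right ?_ hpos
  calc Nat.card (Sel S (L₀.extend S)) * (κ * ∏ q ∈ S, Z q)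
      = Nat.card (Sel S (L₀.extend S)) * κ * ∏ q ∈ S, Z q := by ring
    _ ≤ ∏ q ∈ S, G q := hGW
    _ = (∏ q ∈ S \ S₀, G q) * ∏ q ∈ S₀, G q := hsplitG
    _ ≤ (κ ^ (S \ S₀).card * ∏ q ∈ S \ S₀, Z q) * (κ * ∏ q ∈ S₀, Z q) :=
        Nat.mul_le_mul hnew hloc₀
    _ = κ ^ (S \ S₀).card * (κ * ∏ q ∈ S, Z q) := by rw [hsplitZ]; ring

end Fermat.Agent.S56.Count
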