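/-
S56 / block COUNT : graded commutativity of the cup product `H^1 × H^1 → H^2`,
`y ∪ x = - (x ∪ y)` (for the flipped pairing), and the resulting symmetric descriptions of `DSel`.
-/
import Fermat.Agent.S56.Count.Defs

set_option autoImplicit false

namespace Fermat.Agent.S56.Count

open Fermat.Agent.S55 Fermat.Agent.S55.FB

section

variable {G : Type} [Group G] {𝓝 : LevelSys G}
variable {A A' C : Type} [AddCommGroup A] [DistribMulAction G A]
  [AddCommGroup A'] [DistribMulAction G A'] [AddCommGroup C] [DistribMulAction G C]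

/-- `x ∪ y + y ∪ x = - d (g ↦ e (x g, y g))`. -/
theorem cup11c_add_flip (e : GPair G A A' C) {x : (Fin 1 → G) → A} {y : (Fin 1 → G) → A'}
    (hx : dd A 1 x = 0) (hy : dd A' 1 y = 0) :
    cup11c e x y + cup11c e.flip y x = dd C 1 (fun g => - e (x g) (y g)) := by
  funext g
  rw [Pi.add_apply, cup11c_apply, cup11c_apply, dd_one_apply, cocycle_one hx, cocycle_one hy,
    GPair.flip_apply, smul_neg, ← e.smul_smul]
  simp only [GPair.add_left, GPair.add_right]
  abel

theorem cup11_flip [Smooth 𝓝 A] [Smooth 𝓝 A'] (e : GPair G A A' C) (x : Hsm 𝓝 A 1)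
    (y : Hsm 𝓝 A' 1) : cup11 𝓝 e.flip y x = - cup11 𝓝 e x y := by
  induction x using Hsm.induction_on with
  | _ x =>
  induction y using Hsm.induction_on with
  | _ y =>
  rw [cup11_mk, cup11_mk, eq_neg_iff_add_eq_zero, add_comm, ← map_add, Hsm.mk_eq_zero_iff]
  show cup11c e x y + cup11c e.flip y x ∈ Bsm 𝓝 C 2
  rw [cup11c_add_flip e x.2.2 y.2.2]
  apply dd_mem_Bsm
  obtain ⟨N, hN, hxN, hyN⟩ := IsLevel.exists_common x.2.1 y.2.1
  exact ⟨N, hN, fun g k hgk => by
    show - e ((x : (Fin 1 → G) → A) g) ((y : (Fin 1 → G) → A') g) =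
      - e ((x : (Fin 1 → G) → A) k) ((y : (Fin 1 → G) → A') k)
    rw [hxN g k hgk, hyN g k hgk]⟩

end

section

variable {S : Finset Nat.Primes} {p : ℕ}
variable {N M : Type} [AddCommGroup N] [DistribMulAction GQ N] [AddCommGroup M]
  [DistribMulAction GQ M]

theorem cupLoc_flip [Smooth lvlAll N] [Smooth lvlAll M] (e : GPair GQ N M (Mu p)) (q : Nat.Primes)
    (b : Hloc q N 1) (a : Hloc q M 1) : cupLoc e.flip q a b = - cupLoc e q b a :=
  cup11_flip (e.res (ιv q)) b a

/-- `DSel` in terms of the cup product in the other order. -/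
theorem mem_DSel_iff_flip [Smooth lvlAll N] [Smooth lvlAll M] {e : GPair GQ N M (Mu p)}
    {L : LocCond S M} {b : Hsm (lvlS S) N 1} :
    b ∈ DSel S e L ↔ ∀ q : ↥S, ∀ l ∈ L q, cupLoc e.flip q.1 l (locS S N q.1 1 b) = 0 := by
  rw [mem_DSel]
  refine forall_congr' fun q => forall_congr' fun l => forall_congr' fun _ => ?_
  rw [cupLoc_flip, neg_eq_zero]

end

end Fermat.Agent.S56.Count
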