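/-
S56 / block COUNT : small API for families of local conditions.
-/
import Fermat.Agent.S56.Count.Defs

set_option autoImplicit false

namespace Fermat.Agent.S56.Count

open Fermat.Agent.S55 Fermat.Agent.S55.FB

variable {S₀ S : Finset Nat.Primes} {M : Type} [AddCommGroup M] [DistribMulAction GQ M]

/-- Characterisation of `L₀.extend S`. -/
theorem LocCond.eq_extend (L₀ : LocCond S₀ M) (L : LocCond S M)
    (h₁ : ∀ (q : ↥S) (h : q.1 ∈ S₀), L q = L₀ ⟨q.1, h⟩) (h₂ : ∀ q : ↥S, q.1 ∉ S₀ → L q = ⊤) :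
    L = L₀.extend S := by
  funext q
  by_cases h : q.1 ∈ S₀
  · rw [LocCond.extend_of_mem S L₀ q h, h₁ q h]
  · rw [LocCond.extend_of_not_mem S L₀ q h, h₂ q h]

/-- A family of local conditions indexed by all primes, restricted to `S`. -/
def LocCond.ofFamily (L : ∀ q : Nat.Primes, AddSubgroup (Hloc q M 1)) (S : Finset Nat.Primes) :
    LocCond S M := fun q => L q.1

@[simp] theorem LocCond.ofFamily_apply (L : ∀ q : Nat.Primes, AddSubgroup (Hloc q M 1)) (q : ↥S) :
    LocCond.ofFamily L S q = L q.1 := rfl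

/-- If the family is `⊤` outside `S₀`, its restriction to `S` is the extension of its restriction to
`S₀`. -/
theorem LocCond.ofFamily_eq_extend (L : ∀ q : Nat.Primes, AddSubgroup (Hloc q M 1))
    (h : ∀ q ∈ S, q ∉ S₀ → L q = ⊤) :
    LocCond.ofFamily L S = (LocCond.ofFamily L S₀).extend S :=
  LocCond.eq_extend _ _ (fun _ _ => rfl) fun q hq => h q.1 q.2 hq

end Fermat.Agent.S56.Count
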