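/-
S56 / block COUNT, node 9b (helper14): the extension `E_z` does not split locally at `q` if
`loc_q [z] ≠ 0`; consequences for invariants and for `G_q`-maps `Hom(E_z, μ_p) → μ_p`.
-/
import Fermat.Agent.S56.Count.Defs
import Fermat.Agent.S55.Formal.HomDual
import Fermat.Agent.S55.Bridge.MuCoef
import Fermat.Agent.S56.Count.Perfect
import Fermat.Agent.S56.Count.ExtCoef

set_option autoImplicit false

namespace Fermat.Agent.S56.Count

open Fermat.Agent.S55 Fermat.Agent.S55.FB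

variable {S : Finset Nat.Primes} {p : ℕ} [Fact p.Prime]
variable {N M : Type} [AddCommGroup N] [DistribMulAction GQ N] [AddCommGroup M]
  [DistribMulAction GQ M]

/-- integers `j`, `k` with `j = c` and `k j = 1` in `𝔽_p`. -/
theorem SplitLoc.exists_int_inv {c : Fp p} (hc : c ≠ 0) :
    ∃ j k : ℤ, c = Fp.of p (j : ZMod p) ∧ ((k * j : ℤ) : ZMod p) = ((1 : ℤ) : ZMod p) := by
  obtain ⟨j, hj⟩ := ZMod.intCast_surjective (n := p) ((Fp.of p).symm c)
  obtain ⟨k, hk⟩ := ZMod.intCast_surjective (n := p) ((Fp.of p).symm c)⁻¹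
  have hc' : (Fp.of p).symm c ≠ 0 := fun h => hc (by simpa using h)
  refine ⟨j, k, by rw [hj, AddEquiv.apply_symm_apply], ?_⟩
  push_cast
  rw [hj, hk, inv_mul_cancel₀ hc']

/-- an invariant element of `E` outside `N` splits the cocycle. -/
theorem SplitLoc.exists_cobound (D : ExtData GQ N p) (q : Nat.Primes) (x : ExtMod D)
    (hx : ∀ γ : Gv q, ιv q γ • x = x) (hc : ExtMod.snd D x ≠ 0) :
    ∃ n' : N, ∀ γ : Gv q, D.z (ιv q γ) = ιv q γ • n' - n' := by
  obtain ⟨j, k, hj, hkj⟩ := SplitLoc.exists_int_inv hc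
  refine ⟨-(k • ExtMod.fst D x), fun γ => ?_⟩
  have h1 : ιv q γ • ExtMod.fst D x + D.sc (ExtMod.snd D x) (D.z (ιv q γ)) = ExtMod.fst D x := by
    have := congrArg (ExtMod.fst D) (hx γ)
    rwa [ExtMod.fst_smul] at this
  have h2 : D.sc (ExtMod.snd D x) (D.z (ιv q γ)) = j • D.z (ιv q γ) := by
    rw [hj]
    exact fpPair_intCast p GQ N D.ptors j _
  rw [h2] at h1
  have h3 : (k * j) • D.z (ιv q γ) = D.z (ιv q γ) := by
    rw [← fpPair_intCast p GQ N D.ptors (k * j), hkj, fpPair_intCast, one_smul]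
  have h4 : k • (ιv q γ • ExtMod.fst D x + j • D.z (ιv q γ)) = k • ExtMod.fst D x := by rw [h1]
  rw [smul_add, smul_smul, h3] at h4
  rw [smul_neg, smul_comm (ιv q γ) k (ExtMod.fst D x)]
  rw [← h4]
  abel

/-- If `loc_q [z] ≠ 0` every `G_q`-invariant element of `E_z` lies in `N`. -/
theorem snd_eq_zero_of_inv (hN : ∀ n : N, p • n = 0) (z : Zsm (lvlS S) N 1) (q : Nat.Primes)
    (hz : locS S N q 1 (Hsm.mk (lvlS S) N 1 z) ≠ 0) (x : ExtMod (ExtData.ofZsm z hN))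
    (hx : ∀ γ : Gv q, ιv q γ • x = x) : ExtMod.snd _ x = 0 := by
  by_contra hc
  apply hz
  obtain ⟨n', key⟩ := SplitLoc.exists_cobound (ExtData.ofZsm z hN) q x hx hc
  rw [locS_mk_eq_zero_iff]
  refine ⟨fun _ => ResMod.toRes (ιv q) n', mem_Csm_zero _, ?_⟩
  funext h
  rw [dd_zero_apply, ResMod.smul_def, ← map_sub, ← key]
  have e : (fun i => ιv q (h i)) = fun _ : Fin 1 => ιv q (h 0) := by
    funext i
    fin_cases i
    rfl
  rw [e]
  rfl

/-- every `G_q`-map `Hom(E, μ_p) → μ_p` is the evaluation at a `G_q`-invariant element. -/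
theorem SplitLoc.exists_inv_eval [Finite N] (D : ExtData GQ N p) (q : Nat.Primes)
    (f : HomLoc q (HomMod (ExtMod D) (Mu p)) (Mu p)) :
    ∃ ε : ExtMod D, (∀ γ : Gv q, ιv q γ • ε = ε) ∧
      ∀ φ : HomMod (ExtMod D) (Mu p), f (ResMod.toRes (ιv q) φ) = ResMod.toRes (ιv q) (φ ε) := by
  have : Finite (ExtMod D) := finite_extMod D
  let f' : HomMod (ExtMod D) (Mu p) →+ Mu p :=
    (ResMod.toRes (ιv q) : Mu p ≃+ ResMod (ιv q) (Mu p)).symm.toAddMonoidHom.comp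
      ((f : ResMod (ιv q) (HomMod (ExtMod D) (Mu p)) →+ ResMod (ιv q) (Mu p)).comp
        (ResMod.toRes (ιv q) :
          HomMod (ExtMod D) (Mu p) ≃+ ResMod (ιv q) (HomMod (ExtMod D) (Mu p))).toAddMonoidHom)
  have hf' : ∀ φ, f (ResMod.toRes (ιv q) φ) = ResMod.toRes (ιv q) (f' φ) := fun φ => rfl
  obtain ⟨ε, hε⟩ := exists_eval (nsmul_extMod D) (Bridge.cardMu p) f'
  have hinv : ∀ γ : Gv q, (ιv q γ)⁻¹ • ε = ε := by
    intro γ
    by_contra hne
    obtain ⟨φ, hφ⟩ := exists_homMod_ne_zero (C := Mu p) (nsmul_extMod D) (Bridge.cardMu p)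
      (sub_ne_zero.mpr hne)
    apply hφ
    have h1 : f (γ • ResMod.toRes (ιv q) φ) = γ • f (ResMod.toRes (ιv q) φ) := map_smul f γ _
    rw [ResMod.smul_def, hf', hf', ResMod.smul_def] at h1
    have h2 : f' (ιv q γ • φ) = ιv q γ • f' φ := (ResMod.toRes (ιv q)).injective h1
    rw [hε, hε, HomMod.smul_apply] at h2
    have h3 : φ ((ιv q γ)⁻¹ • ε) = φ ε := smul_left_cancel _ h2
    rw [map_sub, h3, sub_self]
  refine ⟨ε, fun γ => ?_, fun φ => by rw [hf', hε]⟩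
  have := hinv γ⁻¹
  rwa [map_inv, inv_inv] at this

/-- If `loc_q [z] ≠ 0` every `G_q`-map `Hom(E_z, μ_p) → μ_p` kills `Hom(𝔽_p, μ_p)`. -/
theorem homLoc_precomp_proj_eq_zero [Finite N] (hN : ∀ n : N, p • n = 0) (z : Zsm (lvlS S) N 1)
    (q : Nat.Primes) (hz : locS S N q 1 (Hsm.mk (lvlS S) N 1 z) ≠ 0)
    (f : HomLoc q (HomMod (ExtMod (ExtData.ofZsm z hN)) (Mu p)) (Mu p))
    (u : HomMod (Fp p) (Mu p)) :
    f (ResMod.toRes (ιv q) (Formal.precomp (Mu p) (ExtMod.proj (ExtData.ofZsm z hN)) u)) = 0 := by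
  obtain ⟨ε, hx, hε⟩ := SplitLoc.exists_inv_eval (ExtData.ofZsm z hN) q f
  have hsnd := snd_eq_zero_of_inv hN z q hz ε hx
  rw [hε, Formal.precomp_apply, ExtMod.proj_apply, hsnd, map_zero, map_zero]

end Fermat.Agent.S56.Count
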