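/-
S56 / block COUNT, task S56-CNT-9c: vanishing of `H^2_q(Hom(𝔽_p, μ_p)) → H^2_q(Hom(E_z, μ_p))` when
`loc_q [z] ≠ 0`, and surjectivity of the evaluation at `1`.
-/
import Fermat.Agent.S56.Count.Defs
import Fermat.Agent.S56.Count.ExtCoef
import Fermat.Agent.S56.Count.SplitLoc
import Fermat.Agent.S55.Formal.HomDual
import Fermat.Agent.S55.Formal.F1.HomFun
import Fermat.Agent.S55.Bridge.MuCoef

set_option autoImplicit false

namespace Fermat.Agent.S56.Count

open Fermat.Agent.S55 Fermat.Agent.S55.FB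

variable {S : Finset Nat.Primes} {p : ℕ} [Fact p.Prime]
variable {N M : Type} [AddCommGroup N] [DistribMulAction GQ N] [AddCommGroup M]
  [DistribMulAction GQ M]

/-- If `loc_q [z] ≠ 0` the map `H^2_q(Hom(𝔽_p, μ_p)) → H^2_q(Hom(E_z, μ_p))` is zero (LD₁). -/
theorem map_precomp_proj_eq_zero (C : Contract S p) (hN : IsCoef S p N) (z : Zsm (lvlS S) N 1)
    {q : Nat.Primes} (hq : q ∈ S) (hz : locS S N q 1 (Hsm.mk (lvlS S) N 1 z) ≠ 0)
    (y : Hloc q (HomMod (Fp p) (Mu p)) 2) :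
    Hsm.map (ResMod.map (ιv q)
      (Formal.precomp (Mu p) (ExtMod.proj (ExtData.ofZsm z hN.ptors)))) 2 y = 0 := by
  have := hN.finite
  apply C.LD₁ (HomMod (ExtMod (ExtData.ofZsm z hN.ptors)) (Mu p))
    (F1.isCoef_homMod (isCoef_extMod hN z) C.coefMu) q hq
  intro f
  rw [← Hsm.map_comp, Hsm.map_zero', map_zero]
  intro u
  exact homLoc_precomp_proj_eq_zero hN.ptors z q hz f ((ResMod.toRes (ιv q)).symm u)

/-- the cup product with the class of an invariant element is the map induced by the pairing. -/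
theorem Vanish.cup02_mk_left {G : Type} [Group G] {𝓝 : LevelSys G} {A A' C : Type}
    [AddCommGroup A] [DistribMulAction G A] [AddCommGroup A'] [DistribMulAction G A']
    [AddCommGroup C] [DistribMulAction G C] (e : GPair G A A' C) (a : Zsm 𝓝 A 0)
    (y : Hsm 𝓝 A' 2) :
    cup02 𝓝 e (Hsm.mk 𝓝 A 0 a) y =
      Hsm.map (e.homOfInv ((a : (Fin 0 → G) → A) default) (mem_Zsm_zero.1 a.2)) 2 y := by
  induction y using Hsm.induction_on with
  | h z =>
    rw [cup02_mk]
    rfl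

theorem Vanish.nsmul_Mu (m : Mu p) : p • m = 0 :=
  (Bridge.coefMu {ExtCitation.pPrime p} (Finset.mem_singleton_self _)).ptors m

/-- an additive map on `𝔽_p` is determined by its value at `1`. -/
theorem Vanish.homMod_ext {μ : Type} [AddCommGroup μ] {u u' : HomMod (Fp p) μ}
    (h : u (Fp.of p 1) = u' (Fp.of p 1)) : u = u' := by
  apply HomMod.ext
  intro c
  obtain ⟨k, rfl⟩ := ZMod.intCast_surjective (n := p) c
  have hk : ((k : ZMod p) : Fp p) = k • Fp.of p 1 := by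
    show (k : ZMod p) = k • (1 : ZMod p)
    simp
  rw [hk, map_zsmul, map_zsmul, h]

/-- `H^2_q(Hom(𝔽_p, μ_p)) → H^2_q(μ_p)`, evaluation at `1`, is onto. -/
theorem exists_cup02_oneFp_eq (S : Finset Nat.Primes) (q : Nat.Primes) (x : Hloc q (Mu p) 2) :
    ∃ y : Hloc q (HomMod (Fp p) (Mu p)) 2,
      cup02 (lvlLoc q) ((GPair.ev GQ (Fp p) (Mu p)).res (ιv q))
        (locS S (Fp p) q 0 (oneFp (lvlS S) p)) y = x := by
  set a : Zsm (lvlLoc q) (ResMod (ιv q) (Fp p)) 0 :=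
    Zsm.pmap (ιv q) (lvlS_comap_le_lvlLoc S q)
      (ResMod.toRes (ιv q) : Fp p ≃+ ResMod (ιv q) (Fp p)).toAddMonoidHom
      (fun x a => (ResMod.smul_def (ιv q) x a).symm) 0
      (Zsm.ofInv (𝓝 := lvlS S) ⟨Fp.of p 1, fun _ => rfl⟩) with ha
  have hloc : locS S (Fp p) q 0 (oneFp (lvlS S) p) = Hsm.mk (lvlLoc q) _ 0 a := rfl
  set e := (GPair.ev GQ (Fp p) (Mu p)).res (ιv q) with he
  have hbij : Function.Bijective
      (e.homOfInv ((a : (Fin 0 → Gv q) → ResMod (ιv q) (Fp p)) default)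
        (mem_Zsm_zero.1 a.2)) := by
    constructor
    · intro u u' h
      exact Vanish.homMod_ext (u := (ResMod.toRes (ιv q)).symm u)
        (u' := (ResMod.toRes (ιv q)).symm u') h
    · intro m
      refine ⟨ResMod.toRes (ιv q) (HomMod.of
        ((fpPair p GQ (Mu p) Vanish.nsmul_Mu).toFun.flip ((ResMod.toRes (ιv q)).symm m))), ?_⟩
      show fpPair p GQ (Mu p) Vanish.nsmul_Mu (Fp.of p 1) ((ResMod.toRes (ιv q)).symm m) = m
      have h1 := fpPair_intCast p GQ (Mu p) Vanish.nsmul_Mu 1 ((ResMod.toRes (ιv q)).symm m)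
      rw [Int.cast_one, one_smul] at h1
      exact h1
  obtain ⟨y, hy⟩ := (Hsm.map_bijective (𝓝 := lvlLoc q) hbij 2).2 x
  exact ⟨y, by rw [hloc, Vanish.cup02_mk_left, hy]⟩

end Fermat.Agent.S56.Count
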